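import Mathlib
import Fermat.Agent.Lib.InertiaField.Defs

/-!
# Finite extensions of the inertia field inside `ℚ̄` are totally ramified: definitions
(owner: helper71; block LF1 of S56/FLAT, also used by S15/FL)

Everything happens inside `Qb = ℚ̄`, with `A : ValuationSubring Qb` above `p`,
`I = A.inertiaSubgroupIn ℚ = Gal(ℚ̄ / K0 A)`.

* `adj A S` : the field `K0(S)`, in Galois theoretic form (fixed points of the stabiliser of `S`);
* `orb A x` : the (finite) orbit of `x` under `I` = the conjugates of `x` over `K0 A`;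
* `minP A x = ∏ y ∈ orb A x, (X - y)` : the minimal polynomial of `x` over `K0 A`;
* `IsTotUnif A p ϖ n` : `K0(ϖ)` has degree `n` over `K0`, `v(ϖ)^n = v(p)` and
  `A ∩ K0(ϖ) = ⊕_{i<n} A0 ϖ^i`.
-/

set_option autoImplicit false

namespace Fermat.Agent.Lib.InertiaField

open Polynomial

/-- The field `K0(S)`: the elements fixed by every element of the inertia group fixing `S`. -/
def adj (A : ValuationSubring Qb) (S : Set Qb) : Subfield Qb where
  carrier := {x | ∀ σ ∈ A.inertiaSubgroupIn ℚ, (∀ s ∈ S, σ s = s) → σ x = x}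
  mul_mem' := fun {a b} ha hb σ hσ h => by rw [map_mul, ha σ hσ h, hb σ hσ h]
  one_mem' := fun σ _ _ => map_one σ
  add_mem' := fun {a b} ha hb σ hσ h => by rw [map_add, ha σ hσ h, hb σ hσ h]
  zero_mem' := fun σ _ _ => map_zero σ
  neg_mem' := fun {a} ha σ hσ h => by rw [map_neg, ha σ hσ h]
  inv_mem' := fun a ha σ hσ h => by rw [map_inv₀, ha σ hσ h]

theorem mem_adj {A : ValuationSubring Qb} {S : Set Qb} {x : Qb} :
    x ∈ adj A S ↔ ∀ σ ∈ A.inertiaSubgroupIn ℚ, (∀ s ∈ S, σ s = s) → σ x = x := Iff.rfl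

theorem mem_adj_singleton {A : ValuationSubring Qb} {θ x : Qb} :
    x ∈ adj A {θ} ↔ ∀ σ ∈ A.inertiaSubgroupIn ℚ, σ θ = θ → σ x = x := by
  rw [mem_adj]
  constructor
  · intro h σ hσ hθ
    exact h σ hσ (fun s hs => by rw [Set.mem_singleton_iff.1 hs]; exact hθ)
  · intro h σ hσ hθ
    exact h σ hσ (hθ θ rfl)

theorem mem_adj_of_mem_K0 {A : ValuationSubring Qb} (S : Set Qb) {x : Qb} (hx : x ∈ K0 A) :
    x ∈ adj A S := fun σ hσ _ => (mem_K0_iff A x).1 hx σ hσ

theorem subset_adj {A : ValuationSubring Qb} {S : Set Qb} {s : Qb} (hs : s ∈ S) : s ∈ adj A S :=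
  fun _ _ h => h s hs

theorem self_mem_adj (A : ValuationSubring Qb) (θ : Qb) : θ ∈ adj A {θ} := subset_adj rfl

open Classical in
/-- The orbit of `x` under the inertia group: the conjugates of `x` over `K0 A`. -/
noncomputable def orb (A : ValuationSubring Qb) (x : Qb) : Finset Qb :=
  ((minpoly ℚ x).aroots Qb).toFinset.filter fun y => ∃ σ ∈ A.inertiaSubgroupIn ℚ, σ x = y

theorem mem_orb {A : ValuationSubring Qb} {x y : Qb} :
    y ∈ orb A x ↔ ∃ σ ∈ A.inertiaSubgroupIn ℚ, σ x = y := by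
  classical
  rw [orb, Finset.mem_filter, and_iff_right_iff_imp]
  rintro ⟨σ, -, rfl⟩
  have := Fermat.Agent.Lib.Frobenius.isIntegral_rat
  have hx : IsIntegral ℚ x := Algebra.IsIntegral.isIntegral x
  rw [Multiset.mem_toFinset, mem_aroots]
  refine ⟨minpoly.ne_zero hx, ?_⟩
  have h := Polynomial.aeval_algHom_apply (σ : Qb →ₐ[ℚ] Qb) x (minpoly ℚ x)
  rw [minpoly.aeval, map_zero] at h
  exact h

/-- The minimal polynomial of `x` over `K0 A`. -/
noncomputable def minP (A : ValuationSubring Qb) (x : Qb) : Qb[X] :=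
  ∏ y ∈ orb A x, (X - C y)

/-- `ϖ` is a uniformiser of `K0(ϖ)`; this field is totally ramified of degree `n` over `K0` and its
valuation ring is `⊕_{i<n} A0 ϖ^i`. -/
structure IsTotUnif (A : ValuationSubring Qb) (p : ℕ) (ϖ : Qb) (n : ℕ) : Prop where
  card : (orb A ϖ).card = n
  val_pow : A.valuation ϖ ^ n = A.valuation (p : Qb)
  expand : ∀ x ∈ A, x ∈ adj A {ϖ} → ∃ a : ℕ → Qb, (∀ i, a i ∈ K0 A ∧ a i ∈ A) ∧
    x = ∑ i ∈ Finset.range n, a i * ϖ ^ i

end Fermat.Agent.Lib.InertiaField
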