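import Mathlib
import Fermat.Agent.Lib.InertiaField.TotRam.Defs
import Fermat.Agent.Lib.InertiaField.Residue

/-!
# TotRam, node APPROX: `A ∩ L = ∑ A0 ϖ^i + p^k (A ∩ L)`  (architect: helper71, proofs: helper109)
`L` is a subfield of `Qb` containing `K0 A`, all of whose values are powers of `v ϖ`, `ϖ ∈ L`.
-/

set_option autoImplicit false

namespace Fermat.Agent.Lib.InertiaField

variable {A : ValuationSubring Qb} {p : ℕ}

/-- Induction on `m`.  Step: `r := x - ∑_{i<m} a i ϖ^i ∈ L`, `v r ≤ v ϖ ^ m`, so `r / ϖ^m ∈ A`;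
`exists_mem_K0_sub_mem` gives `b ∈ K0 ∩ A` with `r / ϖ^m - b` a non unit, so
`v (r - b ϖ^m) < v ϖ ^ m`; this element is in `L`, its value is `0` or `v ϖ ^ k` with `k > m`, so it is
`≤ v ϖ ^ (m+1)`.  Use `Function.update a m b`. -/
theorem exists_approx_aux (hp : p.Prime) (hA : A.LiesOverPrime p) (L : Subfield Qb)
    (hK : ∀ x ∈ K0 A, x ∈ L) {ϖ : Qb} (hϖL : ϖ ∈ L) (hϖ1 : A.valuation ϖ < 1) (hϖ0 : ϖ ≠ 0)
    (hval : ∀ x ∈ L, x ≠ 0 → ∃ k : ℤ, A.valuation x = A.valuation ϖ ^ k)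
    {x : Qb} (hxL : x ∈ L) (hxA : x ∈ A) (m : ℕ) :
    ∃ a : ℕ → Qb, (∀ i, a i ∈ K0 A ∧ a i ∈ A) ∧
      A.valuation (x - ∑ i ∈ Finset.range m, a i * ϖ ^ i) ≤ A.valuation ϖ ^ m := by
  have hγ0 : 0 < A.valuation ϖ := zero_lt_iff.2 ((Valuation.ne_zero_iff _).2 hϖ0)
  induction m with
  | zero =>
    refine ⟨fun _ => 0, fun _ => ⟨zero_mem _, zero_mem _⟩, ?_⟩
    rw [Finset.range_zero, Finset.sum_empty, sub_zero, pow_zero]
    exact (A.valuation_le_one_iff x).2 hxA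
  | succ m ih =>
    obtain ⟨a, ha, hr⟩ := ih
    set r : Qb := x - ∑ i ∈ Finset.range m, a i * ϖ ^ i with hrdef
    have hrL : r ∈ L :=
      L.sub_mem hxL (L.sum_mem fun i _ => L.mul_mem (hK _ (ha i).1) (L.pow_mem hϖL i))
    have hpow0 : ϖ ^ m ≠ 0 := pow_ne_zero m hϖ0
    have hvpow0 : A.valuation ϖ ^ m ≠ 0 := pow_ne_zero m hγ0.ne'
    have hdiv : r / ϖ ^ m ∈ A := by
      rw [← A.valuation_le_one_iff, map_div₀, map_pow]
      exact div_le_one_of_le₀ hr zero_le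
    obtain ⟨b, hbK, hbA, hb⟩ := exists_mem_K0_sub_mem A p hp hA hdiv
    rw [ValuationSubring.mem_nonunits_iff] at hb
    have hy : A.valuation (r - b * ϖ ^ m) < A.valuation ϖ ^ m := by
      have h1 : r - b * ϖ ^ m = (r / ϖ ^ m - b) * ϖ ^ m := by
        rw [sub_mul, div_mul_cancel₀ _ hpow0]
      rw [h1, map_mul, map_pow]
      calc _ < 1 * A.valuation ϖ ^ m := mul_lt_mul_of_pos_right hb (zero_lt_iff.2 hvpow0)
        _ = _ := one_mul _
    have hyL : r - b * ϖ ^ m ∈ L := L.sub_mem hrL (L.mul_mem (hK _ hbK) (L.pow_mem hϖL m))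
    refine ⟨Function.update a m b, fun i => ?_, ?_⟩
    · by_cases hi : i = m
      · subst hi
        rw [Function.update_self]
        exact ⟨hbK, hbA⟩
      · rw [Function.update_of_ne hi]
        exact ha i
    · have hsum : x - ∑ i ∈ Finset.range (m + 1), Function.update a m b i * ϖ ^ i =
          r - b * ϖ ^ m := by
        rw [Finset.sum_range_succ, Function.update_self, hrdef, sub_sub]
        congr 2
        refine Finset.sum_congr rfl fun i hi => ?_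
        rw [Function.update_of_ne (Finset.mem_range.1 hi).ne]
      rw [hsum]
      by_cases hy0 : r - b * ϖ ^ m = 0
      · rw [hy0, map_zero]
        exact zero_le
      · obtain ⟨k, hk⟩ := hval _ hyL hy0
        rw [hk, ← zpow_natCast, zpow_lt_zpow_iff_right_of_lt_one₀ hγ0 hϖ1] at hy
        rw [hk, ← zpow_natCast]
        refine zpow_le_zpow_right_of_le_one₀ hγ0 hϖ1.le ?_
        push_cast
        omega

/-- Induction on `k`: `x = m₁ + p x₁` (`exists_approx_aux` with `m = e`), `x₁ ∈ A ∩ L`,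
`x₁ = m' + p^k x''`; take `a i := a₁ i + p * a' i`. -/
theorem exists_approx (hp : p.Prime) (hA : A.LiesOverPrime p) (L : Subfield Qb)
    (hK : ∀ x ∈ K0 A, x ∈ L) {ϖ : Qb} (hϖL : ϖ ∈ L) {e : ℕ} (he : 0 < e)
    (hϖ : A.valuation ϖ ^ e = A.valuation (p : Qb))
    (hval : ∀ x ∈ L, x ≠ 0 → ∃ k : ℤ, A.valuation x = A.valuation ϖ ^ k)
    {x : Qb} (hxL : x ∈ L) (hxA : x ∈ A) (k : ℕ) :
    ∃ a : ℕ → Qb, (∀ i, a i ∈ K0 A ∧ a i ∈ A) ∧
      (x - ∑ i ∈ Finset.range e, a i * ϖ ^ i) / (p : Qb) ^ k ∈ A := by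
  have hp0 : (p : Qb) ≠ 0 := by exact_mod_cast hp.ne_zero
  have hvp : A.valuation (p : Qb) < 1 := (ValuationSubring.mem_nonunits_iff A).1 hA
  have hpA : (p : Qb) ∈ A := (A.valuation_le_one_iff _).1 hvp.le
  have hϖ0 : ϖ ≠ 0 := by
    rintro rfl
    rw [map_zero, zero_pow he.ne'] at hϖ
    exact hp0 ((Valuation.zero_iff _).1 hϖ.symm)
  have hϖ1 : A.valuation ϖ < 1 := by
    by_contra hcon
    rw [not_lt] at hcon
    exact absurd (hϖ ▸ one_le_pow₀ hcon : 1 ≤ A.valuation (p : Qb)) (not_le.2 hvp)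
  induction k generalizing x with
  | zero =>
    refine ⟨fun _ => 0, fun _ => ⟨zero_mem _, zero_mem _⟩, ?_⟩
    simpa using hxA
  | succ k ih =>
    obtain ⟨a₁, ha₁, h₁⟩ := exists_approx_aux hp hA L hK hϖL hϖ1 hϖ0 hval hxL hxA e
    have hx₁L : (x - ∑ i ∈ Finset.range e, a₁ i * ϖ ^ i) / (p : Qb) ∈ L :=
      L.div_mem
        (L.sub_mem hxL (L.sum_mem fun i _ => L.mul_mem (hK _ (ha₁ i).1) (L.pow_mem hϖL i)))
        (natCast_mem L p)
    have hx₁A : (x - ∑ i ∈ Finset.range e, a₁ i * ϖ ^ i) / (p : Qb) ∈ A := by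
      rw [← A.valuation_le_one_iff, map_div₀]
      rw [hϖ] at h₁
      exact div_le_one_of_le₀ h₁ zero_le
    obtain ⟨a', ha', h'⟩ := ih hx₁L hx₁A
    refine ⟨fun i => a₁ i + p * a' i, fun i =>
      ⟨add_mem (ha₁ i).1 (mul_mem (natCast_mem (K0 A) p) (ha' i).1),
        A.add_mem _ _ (ha₁ i).2 (A.mul_mem _ _ hpA (ha' i).2)⟩, ?_⟩
    have h2 : (x - ∑ i ∈ Finset.range e, (a₁ i + p * a' i) * ϖ ^ i) / (p : Qb) ^ (k + 1) =
        ((x - ∑ i ∈ Finset.range e, a₁ i * ϖ ^ i) / (p : Qb) -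
          ∑ i ∈ Finset.range e, a' i * ϖ ^ i) / (p : Qb) ^ k := by
      have h3 : ∑ i ∈ Finset.range e, (a₁ i + p * a' i) * ϖ ^ i =
          ∑ i ∈ Finset.range e, a₁ i * ϖ ^ i + p * ∑ i ∈ Finset.range e, a' i * ϖ ^ i := by
        rw [Finset.mul_sum, ← Finset.sum_add_distrib]
        exact Finset.sum_congr rfl fun i _ => by ring
      rw [h3]
      field_simp
      ring
    rw [h2]
    exact h'

end Fermat.Agent.Lib.InertiaField
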