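import Mathlib
import Fermat.Agent.Lib.InertiaField.TotRam.Defs
import Fermat.Agent.Lib.InertiaField.Unram

/-!
# TotRam, node ORBIT: calculus of the orbits `orb A x` under inertia  (architect: helper71)
Proved by helper123.
Tools: `mem_orb`, `mem_K0_iff`, `mem_adj_singleton`, `apply_mem_of_mem_decomposition`,
`inertia_le_decomposition`, `exists_zpow_mul_unit`.
-/

set_option autoImplicit false

namespace Fermat.Agent.Lib.InertiaField

open Polynomial

variable {A : ValuationSubring Qb} {p : ℕ}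

theorem self_mem_orb (A : ValuationSubring Qb) (x : Qb) : x ∈ orb A x :=
  mem_orb.2 ⟨1, one_mem _, rfl⟩

theorem card_orb_pos (A : ValuationSubring Qb) (x : Qb) : 0 < (orb A x).card :=
  Finset.card_pos.2 ⟨x, self_mem_orb A x⟩

theorem apply_mem_orb {σ : GQ} (hσ : σ ∈ A.inertiaSubgroupIn ℚ) {x y : Qb} (hy : y ∈ orb A x) :
    σ y ∈ orb A x := by
  obtain ⟨τ, hτ, rfl⟩ := mem_orb.1 hy
  exact mem_orb.2 ⟨σ * τ, mul_mem hσ hτ, rfl⟩

/-- `σ` permutes the orbit -/
theorem image_orb {σ : GQ} (hσ : σ ∈ A.inertiaSubgroupIn ℚ) (x : Qb) [DecidableEq Qb] :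
    (orb A x).image σ = orb A x := by
  ext y
  rw [Finset.mem_image]
  constructor
  · rintro ⟨z, hz, rfl⟩
    exact apply_mem_orb hσ hz
  · intro hy
    exact ⟨σ⁻¹ y, apply_mem_orb (inv_mem hσ) hy, σ.apply_symm_apply y⟩

private theorem val_apply_le_of_le {σ : GQ} (hσ : σ ∈ A.decompositionSubgroup ℚ) {x y : Qb}
    (h : A.valuation x ≤ A.valuation y) : A.valuation (σ x) ≤ A.valuation (σ y) := by
  by_cases hy : y = 0
  · rw [hy, map_zero, le_zero_iff, map_eq_zero] at h
    rw [h, map_zero, map_zero]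
    exact zero_le
  · have hvy : A.valuation y ≠ 0 := (_root_.map_ne_zero _).2 hy
    have hσy : σ y ≠ 0 := (_root_.map_ne_zero σ).2 hy
    have hvσy : A.valuation (σ y) ≠ 0 := (_root_.map_ne_zero _).2 hσy
    have h1 : x / y ∈ A := by
      rw [← A.valuation_le_one_iff, map_div₀]
      exact (div_le_one₀ (zero_lt_iff.2 hvy)).2 h
    have h2 := apply_mem_of_mem_decomposition A hσ h1
    rw [map_div₀, ← A.valuation_le_one_iff, map_div₀] at h2
    exact (div_le_one₀ (zero_lt_iff.2 hvσy)).1 h2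

/-- elements of the decomposition group are isometries
(`apply_mem_of_mem_decomposition` for `σ` and `σ⁻¹`, applied to `x / y` ...; or: `σ x / x` and its
inverse ... the simplest: `v a ≤ v b ↔ a / b ∈ A` for `b ≠ 0`.) -/
theorem val_apply_le_iff {σ : GQ} (hσ : σ ∈ A.decompositionSubgroup ℚ) (x y : Qb) :
    A.valuation (σ x) ≤ A.valuation (σ y) ↔ A.valuation x ≤ A.valuation y := by
  refine ⟨fun h => ?_, val_apply_le_of_le hσ⟩
  have h1 := val_apply_le_of_le (inv_mem hσ) h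
  have e : ∀ z : Qb, σ⁻¹ (σ z) = z := fun z => σ.symm_apply_apply z
  rwa [e, e] at h1

private theorem not_val_apply_lt {σ : GQ} (hσ : σ ∈ A.inertiaSubgroupIn ℚ) (x : Qb) :
    ¬ A.valuation (σ x) < A.valuation x := by
  intro h
  have hanti : StrictAnti fun k : ℕ => A.valuation ((σ ^ k) x) := by
    apply strictAnti_nat_of_succ_lt
    intro k
    have hk : σ ^ k ∈ A.decompositionSubgroup ℚ :=
      inertia_le_decomposition A (pow_mem hσ k)
    have e : (σ ^ (k + 1)) x = (σ ^ k) (σ x) := by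
      rw [pow_succ]
      rfl
    rw [e]
    exact (lt_iff_lt_of_le_iff_le (val_apply_le_iff hk x (σ x))).2 h
  have hinj : Function.Injective fun k : ℕ => (σ ^ k) x :=
    Function.Injective.of_comp (f := A.valuation) hanti.injective
  have hinf : (↑(orb A x) : Set Qb).Infinite :=
    Set.infinite_of_injective_forall_mem hinj
      (fun k => Finset.mem_coe.2 (mem_orb.2 ⟨σ ^ k, pow_mem hσ k, rfl⟩))
  exact hinf (orb A x).finite_toSet

/-- inertia preserves the valuation.  (If `x ≠ 0`: by `exists_pow_eq_mul`-free argument: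
`u := σ x / x`.  Suppose `v u < 1`; the orbit of `x` is finite, so `σ ^ m x = x` for some `m > 0`,
while `v (σ ^ (k+1) x) < v (σ ^ k x)` for all `k` by `val_apply_le_iff`: contradiction.  Same for
`v u > 1`.) -/
theorem val_apply {σ : GQ} (hσ : σ ∈ A.inertiaSubgroupIn ℚ) (x : Qb) :
    A.valuation (σ x) = A.valuation x := by
  refine le_antisymm ?_ (not_lt.1 (not_val_apply_lt hσ x))
  have h1 := not_lt.1 (not_val_apply_lt (inv_mem hσ) (σ x))
  have e : σ⁻¹ (σ x) = x := σ.symm_apply_apply x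
  rwa [e] at h1

theorem val_of_mem_orb {x y : Qb} (hy : y ∈ orb A x) : A.valuation y = A.valuation x := by
  obtain ⟨σ, hσ, rfl⟩ := mem_orb.1 hy
  exact val_apply hσ x

/-- the map `σ θ ↦ σ x` from `orb A θ` onto `orb A x` is well defined -/
theorem card_orb_le {θ x : Qb} (hx : x ∈ adj A {θ}) : (orb A x).card ≤ (orb A θ).card := by
  classical
  let g : Qb → Qb := fun y =>
    if h : ∃ σ ∈ A.inertiaSubgroupIn ℚ, σ θ = y then h.choose x else 0
  apply Finset.card_le_card_of_surjOn g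
  intro z hz
  obtain ⟨τ, hτ, rfl⟩ := mem_orb.1 (Finset.mem_coe.1 hz)
  refine ⟨τ θ, Finset.mem_coe.2 (mem_orb.2 ⟨τ, hτ, rfl⟩), ?_⟩
  have h : ∃ σ ∈ A.inertiaSubgroupIn ℚ, σ θ = τ θ := ⟨τ, hτ, rfl⟩
  have hg : g (τ θ) = h.choose x := dif_pos h
  rw [hg]
  obtain ⟨h1, h2⟩ := h.choose_spec
  have h3 : (τ⁻¹ * h.choose) θ = θ := by
    show τ⁻¹ (h.choose θ) = θ
    rw [h2]
    exact τ.symm_apply_apply θ
  have h4 := mem_adj_singleton.1 hx _ (mul_mem (inv_mem hτ) h1) h3
  have h5 : τ ((τ⁻¹ * h.choose) x) = h.choose x := τ.apply_symm_apply _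
  rw [← h5, h4]

/-- the norm -/
theorem prod_orb_mem_K0 (A : ValuationSubring Qb) (x : Qb) : ∏ y ∈ orb A x, y ∈ K0 A := by
  classical
  rw [mem_K0_iff]
  intro σ hσ
  rw [map_prod]
  conv_rhs => rw [← image_orb hσ x]
  rw [Finset.prod_image (fun a _ b _ hab => σ.injective hab)]

theorem val_prod_orb (A : ValuationSubring Qb) (x : Qb) :
    A.valuation (∏ y ∈ orb A x, y) = A.valuation x ^ (orb A x).card := by
  rw [map_prod, Finset.prod_congr rfl fun y hy => val_of_mem_orb hy, Finset.prod_const]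

/-- **the values of `K0(θ)`**: with `D = n!`, `n = [K0(θ) : K0]`.
(`m := (orb A x).card`, `1 ≤ m ≤ n`, so `m ∣ n!`; `v x ^ m = v (∏ y) = v p ^ j` by
`prod_orb_mem_K0`, `exists_zpow_mul_unit`.) -/
theorem exists_zpow_of_mem_adj (hp : p.Prime) (hA : A.LiesOverPrime p) {θ x : Qb}
    (hx : x ∈ adj A {θ}) (hx0 : x ≠ 0) :
    ∃ j : ℤ, A.valuation x ^ (orb A θ).card.factorial = A.valuation (p : Qb) ^ j := by
  obtain ⟨c, hc⟩ := Nat.dvd_factorial (card_orb_pos A x) (card_orb_le hx)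
  have hv := val_prod_orb A x
  have hvx : A.valuation x ≠ 0 := (_root_.map_ne_zero _).2 hx0
  have hne : ∏ y ∈ orb A x, y ≠ 0 := by
    rw [← _root_.map_ne_zero A.valuation, hv]
    exact pow_ne_zero _ hvx
  obtain ⟨k, u, -, hu, hu', h⟩ := exists_zpow_mul_unit A p hp hA (prod_orb_mem_K0 A x) hne
  have hu1 : A.valuation u = 1 := by
    have h1 : A.valuation u ≤ 1 := (A.valuation_le_one_iff u).2 hu
    have h2 : A.valuation u⁻¹ ≤ 1 := (A.valuation_le_one_iff _).2 hu'
    have hu0 : u ≠ 0 := by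
      rintro rfl
      rw [mul_zero] at h
      exact hne h
    have hvu : A.valuation u ≠ 0 := (_root_.map_ne_zero _).2 hu0
    rw [map_inv₀] at h2
    exact le_antisymm h1 ((inv_le_one₀ (zero_lt_iff.2 hvu)).1 h2)
  refine ⟨k * c, ?_⟩
  rw [hc, pow_mul, ← hv, h, map_mul, hu1, mul_one, map_zpow₀, zpow_mul, zpow_natCast]

end Fermat.Agent.Lib.InertiaField
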