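import Mathlib
import Fermat.Agent.Lib.InertiaField.TotRam.Orbit

/-!
# TotRam, node INDEP: `1, ϖ, …, ϖ^(e-1)` are "orthogonal" over `K0`  (architect: helper71)
Here `ϖ : Qb` is ANY element with `v ϖ ^ e = v p`, `e > 0`.
-/

set_option autoImplicit false

namespace Fermat.Agent.Lib.InertiaField

open Polynomial

variable {A : ValuationSubring Qb} {p : ℕ}

/-- `0 < v ϖ < 1` -/
private theorem indep_val_pos_lt (hp : p.Prime) (hA : A.LiesOverPrime p) {ϖ : Qb} {e : ℕ}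
    (hϖ : A.valuation ϖ ^ e = A.valuation (p : Qb)) :
    0 < A.valuation ϖ ∧ A.valuation ϖ < 1 := by
  have hp0 : A.valuation (p : Qb) ≠ 0 :=
    (_root_.map_ne_zero _).2 (Nat.cast_ne_zero.2 hp.ne_zero)
  have hp1 : A.valuation (p : Qb) < 1 := (A.mem_nonunits_iff).1 hA
  constructor
  · rw [zero_lt_iff]
    intro h
    rw [h] at hϖ
    rcases Nat.eq_zero_or_pos e with rfl | he
    · rw [pow_zero] at hϖ
      exact hp1.ne hϖ.symm
    · rw [zero_pow he.ne'] at hϖ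
      exact hp0 hϖ.symm
  · by_contra h
    rw [not_lt] at h
    have h2 : 1 ≤ A.valuation ϖ ^ e := one_le_pow₀ h
    rw [hϖ] at h2
    exact absurd hp1 (not_lt.2 h2)

/-- the value of a nonzero element of `K0` is a power of `v p = v ϖ ^ e` -/
private theorem indep_val_K0 (hp : p.Prime) (hA : A.LiesOverPrime p) {ϖ : Qb} {e : ℕ}
    (hϖ : A.valuation ϖ ^ e = A.valuation (p : Qb)) {a : Qb} (ha : a ∈ K0 A) (h0 : a ≠ 0) :
    ∃ k : ℤ, A.valuation a = A.valuation ϖ ^ ((e : ℤ) * k) := by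
  obtain ⟨k, u, -, hu, hu', rfl⟩ := exists_zpow_mul_unit A p hp hA ha h0
  have hu0 : u ≠ 0 := right_ne_zero_of_mul h0
  have hu1 : A.valuation u = 1 := by
    refine le_antisymm ((A.valuation_le_one_iff u).2 hu) ?_
    have h1 := (A.valuation_le_one_iff _).2 hu'
    rw [map_inv₀] at h1
    exact (inv_le_one₀ (zero_lt_iff.2 ((_root_.map_ne_zero _).2 hu0))).1 h1
  refine ⟨k, ?_⟩
  rw [map_mul, hu1, mul_one, map_zpow₀, ← hϖ, zpow_mul, zpow_natCast]

/-- the value of a nonzero term -/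
private theorem indep_val_term (hp : p.Prime) (hA : A.LiesOverPrime p) {ϖ : Qb} {e : ℕ}
    (hϖ : A.valuation ϖ ^ e = A.valuation (p : Qb)) {a : Qb} (ha : a ∈ K0 A) (h0 : a ≠ 0)
    (i : ℕ) : ∃ k : ℤ, A.valuation (a * ϖ ^ i) = A.valuation ϖ ^ ((e : ℤ) * k + i) := by
  obtain ⟨k, hk⟩ := indep_val_K0 hp hA hϖ ha h0
  refine ⟨k, ?_⟩
  rw [map_mul, map_pow, hk, zpow_add₀ (indep_val_pos_lt hp hA hϖ).1.ne', zpow_natCast]

private theorem indep_arith {e i j : ℕ} {k l : ℤ} (hi : i < e) (hj : j < e)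
    (h : (e : ℤ) * k + i = (e : ℤ) * l + j) : i = j := by
  have he : (0 : ℤ) ≤ e := Int.natCast_nonneg e
  rcases lt_trichotomy k l with hkl | hkl | hkl
  · have h1 : (e : ℤ) * (k + 1) ≤ e * l := mul_le_mul_of_nonneg_left (by omega) he
    rw [mul_add, mul_one] at h1
    omega
  · subst hkl
    omega
  · have h1 : (e : ℤ) * (l + 1) ≤ e * k := mul_le_mul_of_nonneg_left (by omega) he
    rw [mul_add, mul_one] at h1
    omega

/-- the sum has the value of a term of maximal value -/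
private theorem indep_exists_max (hp : p.Prime) (hA : A.LiesOverPrime p) {ϖ : Qb} {e : ℕ}
    (he : 0 < e) (hϖ : A.valuation ϖ ^ e = A.valuation (p : Qb)) {a : ℕ → Qb}
    (ha : ∀ i, a i ∈ K0 A) :
    ∃ j < e, A.valuation (∑ j ∈ Finset.range e, a j * ϖ ^ j) = A.valuation (a j * ϖ ^ j) ∧
      ∀ i < e, A.valuation (a i * ϖ ^ i) ≤ A.valuation (a j * ϖ ^ j) := by
  obtain ⟨hγ0, hγ1⟩ := indep_val_pos_lt hp hA hϖ
  obtain ⟨j, hj, hmax⟩ := Finset.exists_max_image (Finset.range e)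
    (fun i => A.valuation (a i * ϖ ^ i)) ⟨0, Finset.mem_range.2 he⟩
  refine ⟨j, Finset.mem_range.1 hj, ?_, fun i hi => hmax i (Finset.mem_range.2 hi)⟩
  by_cases h0 : A.valuation (a j * ϖ ^ j) = 0
  · rw [h0, map_eq_zero]
    refine Finset.sum_eq_zero fun i hi => ?_
    have h1 := hmax i hi
    simp only [h0] at h1
    exact (map_eq_zero _).1 (le_zero_iff.1 h1)
  · refine Valuation.map_sum_eq_of_lt _ hj fun i hi => ?_
    rw [Finset.mem_sdiff, Finset.mem_singleton] at hi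
    refine lt_of_le_of_ne (hmax i hi.1) fun heq => hi.2 ?_
    have haj : a j ≠ 0 := by
      rintro h
      rw [h, zero_mul, map_zero] at h0
      exact h0 rfl
    have hai : a i ≠ 0 := by
      rintro h
      rw [h, zero_mul, map_zero] at heq
      exact h0 heq.symm
    obtain ⟨k, hk⟩ := indep_val_term hp hA hϖ (ha i) hai i
    obtain ⟨l, hl⟩ := indep_val_term hp hA hϖ (ha j) haj j
    rw [hk, hl] at heq
    exact indep_arith (Finset.mem_range.1 hi.1) (Finset.mem_range.1 hj)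
      (zpow_right_injective₀ hγ0 hγ1.ne heq)

/-- **The maximum formula.**  The nonzero terms have pairwise distinct valuations:
`v (a i * ϖ ^ i) = v ϖ ^ (e * k i + i)` (`exists_zpow_mul_unit`), and `zpow` of `v ϖ < 1` is injective.
Take `j` maximising `v (a j * ϖ ^ j)` (`Finset.exists_max_image`) and use
`Valuation.map_sum_eq_of_lt`. -/
theorem val_term_le_val_sum (hp : p.Prime) (hA : A.LiesOverPrime p) {ϖ : Qb} {e : ℕ} (he : 0 < e)
    (hϖ : A.valuation ϖ ^ e = A.valuation (p : Qb)) {a : ℕ → Qb} (ha : ∀ i, a i ∈ K0 A)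
    {i : ℕ} (hi : i < e) :
    A.valuation (a i * ϖ ^ i) ≤ A.valuation (∑ j ∈ Finset.range e, a j * ϖ ^ j) := by
  obtain ⟨j, -, hj, hmax⟩ := indep_exists_max hp hA he hϖ ha
  rw [hj]
  exact hmax i hi

theorem eq_zero_of_sum_eq_zero (hp : p.Prime) (hA : A.LiesOverPrime p) {ϖ : Qb} {e : ℕ}
    (he : 0 < e) (hϖ : A.valuation ϖ ^ e = A.valuation (p : Qb)) {a : ℕ → Qb}
    (ha : ∀ i, a i ∈ K0 A) (h : ∑ j ∈ Finset.range e, a j * ϖ ^ j = 0) {i : ℕ} (hi : i < e) :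
    a i = 0 := by
  have h1 := val_term_le_val_sum hp hA he hϖ ha hi
  rw [h, map_zero, le_zero_iff, map_eq_zero] at h1
  have hϖ0 : ϖ ≠ 0 := (_root_.map_ne_zero A.valuation).1 (indep_val_pos_lt hp hA hϖ).1.ne'
  exact (mul_eq_zero.1 h1).resolve_right (pow_ne_zero i hϖ0)

/-- `v (a i) v ϖ ^ i ≤ 1`; if `a i ∉ A` then `(a i)⁻¹ ∈ K0` is a non unit, so `(a i)⁻¹ / p ∈ A`
(`div_mem`), `v (a i) ≥ (v p)⁻¹ = (v ϖ ^ e)⁻¹`, and `v (a i) v ϖ ^ i ≥ (v ϖ ^ (e - i))⁻¹ > 1`. -/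
theorem coeff_mem_of_sum_mem (hp : p.Prime) (hA : A.LiesOverPrime p) {ϖ : Qb} {e : ℕ}
    (he : 0 < e) (hϖ : A.valuation ϖ ^ e = A.valuation (p : Qb)) {a : ℕ → Qb}
    (ha : ∀ i, a i ∈ K0 A) (h : ∑ j ∈ Finset.range e, a j * ϖ ^ j ∈ A) {i : ℕ} (hi : i < e) :
    a i ∈ A := by
  by_cases h0 : a i = 0
  · rw [h0]
    exact A.zero_mem
  obtain ⟨hγ0, hγ1⟩ := indep_val_pos_lt hp hA hϖ
  have h2 : A.valuation (a i * ϖ ^ i) ≤ 1 :=
    (val_term_le_val_sum hp hA he hϖ ha hi).trans ((A.valuation_le_one_iff _).2 h)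
  obtain ⟨k, hk⟩ := indep_val_K0 hp hA hϖ (ha i) h0
  rw [map_mul, map_pow, hk, ← zpow_natCast, ← zpow_add₀ hγ0.ne',
    zpow_le_one_iff_right_of_lt_one₀ hγ0 hγ1] at h2
  have h4 : 0 ≤ k := by
    by_contra hneg
    have h5 : (e : ℤ) * (k + 1) ≤ e * 0 :=
      mul_le_mul_of_nonneg_left (by omega) (Int.natCast_nonneg e)
    rw [mul_add, mul_one, mul_zero] at h5
    omega
  rw [← A.valuation_le_one_iff, hk]
  exact zpow_le_one₀ hγ0 hγ1.le (mul_nonneg (Int.natCast_nonneg e) h4)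

/-- the value of the sum only depends on `v ϖ` -/
theorem val_sum_eq_of_val_eq (hp : p.Prime) (hA : A.LiesOverPrime p) {ϖ x : Qb} {e : ℕ}
    (he : 0 < e) (hϖ : A.valuation ϖ ^ e = A.valuation (p : Qb))
    (hx : A.valuation x = A.valuation ϖ) {a : ℕ → Qb} (ha : ∀ i, a i ∈ K0 A) :
    A.valuation (∑ j ∈ Finset.range e, a j * x ^ j) =
      A.valuation (∑ j ∈ Finset.range e, a j * ϖ ^ j) := by
  have hx' : A.valuation x ^ e = A.valuation (p : Qb) := by rw [hx, hϖ]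
  have hterm : ∀ j, A.valuation (a j * x ^ j) = A.valuation (a j * ϖ ^ j) := fun j => by
    rw [map_mul, map_mul, map_pow, map_pow, hx]
  obtain ⟨j, hj, hje, -⟩ := indep_exists_max hp hA he hx' ha
  obtain ⟨l, hl, hle, -⟩ := indep_exists_max hp hA he hϖ ha
  refine le_antisymm ?_ ?_
  · rw [hje, hterm]
    exact val_term_le_val_sum hp hA he hϖ ha hj
  · rw [hle, ← hterm]
    exact val_term_le_val_sum hp hA he hx' ha hl

/-- the value of a nonzero sum is a power of `v ϖ` -/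
theorem exists_val_sum_eq_zpow (hp : p.Prime) (hA : A.LiesOverPrime p) {ϖ : Qb} {e : ℕ}
    (he : 0 < e) (hϖ : A.valuation ϖ ^ e = A.valuation (p : Qb)) {a : ℕ → Qb}
    (ha : ∀ i, a i ∈ K0 A) (h : ∑ j ∈ Finset.range e, a j * ϖ ^ j ≠ 0) :
    ∃ k : ℤ, A.valuation (∑ j ∈ Finset.range e, a j * ϖ ^ j) = A.valuation ϖ ^ k := by
  obtain ⟨j, -, hje, -⟩ := indep_exists_max hp hA he hϖ ha
  have haj : a j ≠ 0 := by
    intro h0
    rw [h0, zero_mul, map_zero, map_eq_zero] at hje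
    exact h hje
  obtain ⟨k, hk⟩ := indep_val_term hp hA hϖ (ha j) haj j
  exact ⟨_, hje.trans hk⟩

end Fermat.Agent.Lib.InertiaField
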