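import Mathlib
import Fermat.Agent.Lib.InertiaField.TotRam.Orbit

/-!
# TotRam, node MINP: the minimal polynomial `minP A x = ∏ y ∈ orb A x, (X - y)` over `K0`
(architect: helper71; proofs: helper174)
-/

set_option autoImplicit false

namespace Fermat.Agent.Lib.InertiaField

open Polynomial

variable {A : ValuationSubring Qb} {p : ℕ}

/-! ### the minimal polynomial -/

theorem monic_minP (A : ValuationSubring Qb) (x : Qb) : (minP A x).Monic :=
  monic_prod_of_monic _ _ fun y _ => monic_X_sub_C y

theorem natDegree_minP (A : ValuationSubring Qb) (x : Qb) :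
    (minP A x).natDegree = (orb A x).card := by
  rw [minP, natDegree_prod_of_monic _ _ fun y _ => monic_X_sub_C y]
  simp

theorem eval_minP (A : ValuationSubring Qb) (x z : Qb) :
    (minP A x).eval z = ∏ y ∈ orb A x, (z - y) := by
  rw [minP, eval_prod]
  simp

theorem eval_self_minP (A : ValuationSubring Qb) (x : Qb) : (minP A x).eval x = 0 := by
  rw [eval_minP]
  exact Finset.prod_eq_zero (self_mem_orb A x) (sub_self x)

/-- `(minP A x).map σ = minP A x` (`image_orb`, `Polynomial.map_prod`, `Finset.prod_image`) -/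
theorem map_minP {σ : GQ} (hσ : σ ∈ A.inertiaSubgroupIn ℚ) (x : Qb) :
    (minP A x).map (σ : Qb →+* Qb) = minP A x := by
  classical
  rw [minP, Polynomial.map_prod]
  conv_rhs => rw [← image_orb hσ x]
  rw [Finset.prod_image (fun a _ b _ h => σ.injective h)]
  refine Finset.prod_congr rfl fun y _ => ?_
  rw [Polynomial.map_sub, Polynomial.map_X, Polynomial.map_C]
  rfl

theorem coeff_minP_mem_K0 (A : ValuationSubring Qb) (x : Qb) (i : ℕ) :
    (minP A x).coeff i ∈ K0 A := by
  rw [mem_K0_iff]
  intro τ hτ
  have h := congrArg (fun P : Qb[X] => P.coeff i) (map_minP hτ x)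
  simp only [coeff_map] at h
  exact h

private theorem minP_coeff_mul (a : Qb) (Q : Qb[X]) (i : ℕ) :
    ((X - C a) * Q).coeff (i + 1) = Q.coeff i - a * Q.coeff (i + 1) := by
  rw [sub_mul, coeff_sub, coeff_X_mul, coeff_C_mul]

private theorem minP_coeff_mul_zero (a : Qb) (Q : Qb[X]) :
    ((X - C a) * Q).coeff 0 = - (a * Q.coeff 0) := by
  rw [sub_mul, coeff_sub, coeff_X_mul_zero, coeff_C_mul, zero_sub]

private theorem minP_coeff_prod_mem (s : Finset Qb) (hs : ∀ y ∈ s, y ∈ A) (i : ℕ) :
    (∏ y ∈ s, (X - C y)).coeff i ∈ A := by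
  classical
  induction s using Finset.induction_on generalizing i with
  | empty =>
    rw [Finset.prod_empty, coeff_one]
    split_ifs
    · exact A.one_mem
    · exact A.zero_mem
  | insert a s ha ih =>
    have ih' := ih fun y hy => hs y (Finset.mem_insert_of_mem hy)
    have haA := hs a (Finset.mem_insert_self a s)
    rw [Finset.prod_insert ha]
    cases i with
    | zero =>
      rw [minP_coeff_mul_zero]
      exact A.neg_mem _ (A.mul_mem _ _ haA (ih' 0))
    | succ i =>
      rw [minP_coeff_mul]
      exact A.toSubring.sub_mem (ih' i) (A.mul_mem _ _ haA (ih' (i + 1)))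

private theorem minP_mul_mem_nonunits {a b : Qb} (ha : a ∈ A.nonunits) (hb : b ∈ A) :
    a * b ∈ A.nonunits := by
  rw [A.mem_nonunits_iff] at ha ⊢
  rw [map_mul, mul_comm]
  exact mul_lt_of_le_one_of_lt ((A.valuation_le_one_iff b).mpr hb) ha

private theorem minP_coeff_prod_mem_nonunits (s : Finset Qb) (hs : ∀ y ∈ s, y ∈ A.nonunits) (i : ℕ)
    (hi : i < s.card) : (∏ y ∈ s, (X - C y)).coeff i ∈ A.nonunits := by
  classical
  induction s using Finset.induction_on generalizing i with
  | empty => simp at hi
  | insert a s ha ih =>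
    have hs' : ∀ y ∈ s, y ∈ A.nonunits := fun y hy => hs y (Finset.mem_insert_of_mem hy)
    have ih' := ih hs'
    have hmem := minP_coeff_prod_mem s fun y hy => A.nonunits_subset (hs' y hy)
    have haA := hs a (Finset.mem_insert_self a s)
    rw [Finset.card_insert_of_notMem ha] at hi
    rw [Finset.prod_insert ha]
    cases i with
    | zero =>
      rw [minP_coeff_mul_zero, A.mem_nonunits_iff, Valuation.map_neg, ← A.mem_nonunits_iff]
      exact minP_mul_mem_nonunits haA (hmem 0)
    | succ i =>
      rw [minP_coeff_mul]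
      have h1 := ih' i (by omega)
      have h2 := minP_mul_mem_nonunits haA (hmem (i + 1))
      rw [A.mem_nonunits_iff] at h1 h2 ⊢
      exact A.valuation.map_sub_lt h1 h2

/-- (`Polynomial` with coefficients in the subring `A`: e.g. `Subring.prod_mem` in
`Polynomial.lifts`, or `Polynomial.coeff_prod..`; or induction on a finset `s ⊆ orb A x`.) -/
theorem coeff_minP_mem {x : Qb} (hx : x ∈ A) (i : ℕ) : (minP A x).coeff i ∈ A := by
  refine minP_coeff_prod_mem _ (fun y hy => ?_) i
  obtain ⟨σ, hσ, rfl⟩ := mem_orb.1 hy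
  exact apply_mem_of_mem_decomposition A (inertia_le_decomposition A hσ) hx

/-- for `x` in the maximal ideal the lower coefficients are in the maximal ideal -/
theorem coeff_minP_mem_nonunits {x : Qb} (hx : x ∈ A.nonunits) {i : ℕ}
    (hi : i < (orb A x).card) : (minP A x).coeff i ∈ A.nonunits := by
  refine minP_coeff_prod_mem_nonunits _ (fun y hy => ?_) i hi
  obtain ⟨σ, hσ, rfl⟩ := mem_orb.1 hy
  exact apply_mem_nonunits_of_mem_decomposition A (inertia_le_decomposition A hσ) hx

theorem coeff_zero_minP (A : ValuationSubring Qb) (x : Qb) :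
    (minP A x).coeff 0 = (-1) ^ (orb A x).card * ∏ y ∈ orb A x, y := by
  rw [coeff_zero_eq_eval_zero, eval_minP]
  simp only [zero_sub]
  exact Finset.prod_neg _

end Fermat.Agent.Lib.InertiaField
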