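import Mathlib
import Fermat.Agent.Lib.InertiaField.TotRam.Indep
import Fermat.Agent.Lib.InertiaField.TotRam.MinP

/-!
# TotRam, node CARD: the number of conjugates of `ϖ`  (architect: helper71, proofs: helper294)
-/

set_option autoImplicit false

namespace Fermat.Agent.Lib.InertiaField

open Polynomial

variable {A : ValuationSubring Qb} {p : ℕ}

/-- `ϖ` has at least `e` conjugates: otherwise `minP A ϖ` (monic of degree `m < e`, coefficients in
`K0`, `eval_self_minP`) is a nontrivial relation: apply `eq_zero_of_sum_eq_zero` to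
`a i := (minP A ϖ).coeff i` (`Polynomial.eval_eq_sum_range'`) and `i = m`. -/
theorem le_card_orb (hp : p.Prime) (hA : A.LiesOverPrime p) {ϖ : Qb} {e : ℕ} (he : 0 < e)
    (hϖ : A.valuation ϖ ^ e = A.valuation (p : Qb)) : e ≤ (orb A ϖ).card := by
  by_contra hcon
  have hm : (orb A ϖ).card < e := not_le.1 hcon
  have hdeg : (minP A ϖ).natDegree < e := by rwa [natDegree_minP]
  have h0 : ∑ j ∈ Finset.range e, (minP A ϖ).coeff j * ϖ ^ j = 0 := by
    rw [← Polynomial.eval_eq_sum_range' hdeg, eval_self_minP]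
  have h1 : (minP A ϖ).coeff (orb A ϖ).card = 0 :=
    eq_zero_of_sum_eq_zero hp hA he hϖ (a := fun j => (minP A ϖ).coeff j)
      (fun j => coeff_minP_mem_K0 A ϖ j) h0 hm
  have h2 : (minP A ϖ).coeff (orb A ϖ).card = 1 := by
    rw [← natDegree_minP]
    exact (monic_minP A ϖ).coeff_natDegree
  rw [h2] at h1
  exact one_ne_zero h1

/-- `ϖ` has at most `e` conjugates if `ϖ ^ e` is a combination of the lower powers: all the
conjugates are roots of `X ^ e - ∑ C (a i) X ^ i` (monic of degree `e`). -/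
theorem card_orb_le_of_pow_eq {ϖ : Qb} {e : ℕ} {a : ℕ → Qb} (ha : ∀ i, a i ∈ K0 A)
    (h : ϖ ^ e = ∑ j ∈ Finset.range e, a j * ϖ ^ j) : (orb A ϖ).card ≤ e := by
  classical
  have hdeg : (∑ j ∈ Finset.range e, C (a j) * (X : Qb[X]) ^ j).degree < e := by
    refine lt_of_le_of_lt (degree_sum_le _ _) ?_
    refine (Finset.sup_lt_iff (WithBot.bot_lt_coe e)).2 ?_
    intro j hj
    exact lt_of_le_of_lt (degree_C_mul_X_pow_le j (a j))
      (Nat.cast_lt.2 (Finset.mem_range.1 hj))
  have hmonic : ((X : Qb[X]) ^ e - ∑ j ∈ Finset.range e, C (a j) * (X : Qb[X]) ^ j).Monic :=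
    monic_X_pow_sub hdeg
  have hnat : ((X : Qb[X]) ^ e - ∑ j ∈ Finset.range e, C (a j) * (X : Qb[X]) ^ j).natDegree = e := by
    apply natDegree_eq_of_degree_eq_some
    rw [degree_sub_eq_left_of_degree_lt (by rwa [degree_X_pow]), degree_X_pow]
  have hsub : orb A ϖ ⊆
      ((X : Qb[X]) ^ e - ∑ j ∈ Finset.range e, C (a j) * (X : Qb[X]) ^ j).roots.toFinset := by
    intro y hy
    obtain ⟨σ, hσ, rfl⟩ := mem_orb.1 hy
    rw [Multiset.mem_toFinset, mem_roots hmonic.ne_zero, IsRoot.def, eval_sub, eval_pow, eval_X,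
      eval_finset_sum, sub_eq_zero, ← map_pow, h, map_sum]
    refine Finset.sum_congr rfl fun j _ => ?_
    rw [map_mul, map_pow, (mem_K0_iff A (a j)).1 (ha j) σ hσ, eval_mul, eval_C, eval_pow, eval_X]
  calc (orb A ϖ).card ≤ _ := Finset.card_le_card hsub
    _ ≤ _ := Multiset.toFinset_card_le _
    _ ≤ _ := card_roots' _
    _ = e := hnat

end Fermat.Agent.Lib.InertiaField
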