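import Mathlib
import Fermat.Agent.Lib.InertiaField.TotRam.Orbit

/-!
# TotRam, node DEFECTLESS: `∑ K0 ϖ^i` is closed in `Qb`  (architect: helper71)
Proved (task 2774, helper220).
This replaces completeness / finiteness of the integral closure by Galois theory + Lagrange
interpolation.
-/

set_option autoImplicit false

namespace Fermat.Agent.Lib.InertiaField

open Polynomial

variable {A : ValuationSubring Qb} {p : ℕ}

/-- (`exists_div_pow_not_mem`) -/
theorem eq_zero_of_forall_div_pow_mem (hp : p.Prime) (hA : A.LiesOverPrime p) {z : Qb}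
    (h : ∀ k : ℕ, z / (p : Qb) ^ k ∈ A) : z = 0 := by
  by_contra hz
  obtain ⟨k, hk⟩ := exists_div_pow_not_mem A p hp hA hz
  exact hk (h k)

/-- (`exists_div_pow_not_mem` for `z⁻¹`: `z⁻¹ / p^t ∉ A`, so its inverse `p^t z` is in `A`.) -/
theorem exists_pow_mul_mem (hp : p.Prime) (hA : A.LiesOverPrime p) (z : Qb) :
    ∃ t : ℕ, (p : Qb) ^ t * z ∈ A := by
  rcases eq_or_ne z 0 with rfl | hz
  · exact ⟨0, by rw [mul_zero]; exact A.zero_mem⟩
  obtain ⟨t, ht⟩ := exists_div_pow_not_mem A p hp hA (inv_ne_zero hz)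
  refine ⟨t, ?_⟩
  have := (A.mem_or_inv_mem (z⁻¹ / (p : Qb) ^ t)).resolve_left ht
  rwa [inv_div, div_inv_eq_mul] at this

/-- a common denominator for a finite family (`Finset.induction_on`, or `Finset.sup`) -/
theorem exists_pow_mul_mem_finset (hp : p.Prime) (hA : A.LiesOverPrime p) {ι : Type*}
    (s : Finset ι) (z : ι → Qb) : ∃ t : ℕ, ∀ i ∈ s, (p : Qb) ^ t * z i ∈ A := by
  classical
  have hpA : (p : Qb) ∈ A := A.nonunits_subset hA
  induction s using Finset.induction_on with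
  | empty => exact ⟨0, by simp⟩
  | insert a s ha ih =>
    obtain ⟨t, ht⟩ := ih
    obtain ⟨t', ht'⟩ := exists_pow_mul_mem hp hA (z a)
    refine ⟨t + t', fun i hi => ?_⟩
    rcases Finset.mem_insert.1 hi with rfl | hi
    · rw [pow_add, mul_assoc]
      exact A.mul_mem _ _ (A.pow_mem hpA t) ht'
    · rw [pow_add, mul_comm ((p : Qb) ^ t), mul_assoc]
      exact A.mul_mem _ _ (A.pow_mem hpA t') (ht i hi)

/-- **`K0` is closed in `Qb`.**  For `σ` in the inertia group,
`(σ z - z) / p^k = σ ((z - a) / p^k) - (z - a) / p^k ∈ A` for all `k`, so `σ z = z`. -/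
theorem mem_K0_of_approx (hp : p.Prime) (hA : A.LiesOverPrime p) {z : Qb}
    (h : ∀ k : ℕ, ∃ a ∈ K0 A, (z - a) / (p : Qb) ^ k ∈ A) : z ∈ K0 A := by
  rw [mem_K0_iff]
  intro σ hσ
  rw [← sub_eq_zero]
  apply eq_zero_of_forall_div_pow_mem hp hA
  intro k
  obtain ⟨a, ha, hk⟩ := h k
  have hσa : σ a = a := (mem_K0_iff A a).1 ha σ hσ
  have h1 : σ ((z - a) / (p : Qb) ^ k) ∈ A :=
    apply_mem_of_mem_decomposition A (inertia_le_decomposition A hσ) hk
  have h2 : (σ z - z) / (p : Qb) ^ k = σ ((z - a) / (p : Qb) ^ k) - (z - a) / (p : Qb) ^ k := by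
    rw [map_div₀, map_sub, hσa, map_pow, map_natCast]
    ring
  rw [h2]
  exact A.sub_mem h1 hk

/-- **`∑_{i<e} K0 ϖ^i` is closed in `Qb`** if `ϖ ∈ A` has at least `e` conjugates over `K0`.
Proof.  Choose `s ⊆ orb A ϖ` with `s.card = e` (`Finset.exists_subset_card_eq`), for `y ∈ s` choose
`σ_y` in the inertia group with `σ_y ϖ = y`; `r y := σ_y x`; `g := Lagrange.interpolate s id r`
(degree `< e`).  For `k` and `a` as in `h` let `f := ∑_{i<e} C (a i) X^i`; then
`f = Lagrange.interpolate s id (fun y => f.eval y)` (`Lagrange.eq_interpolate`), so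
`f - g = ∑ y ∈ s, C (f.eval y - r y) * Lagrange.basis s id y`, and
`(f.eval y - r y) / p^k = - σ_y ((x - f.eval ϖ) / p^k) ∈ A`.
With `t` a common denominator of the coefficients of the `Lagrange.basis s id y`
(`exists_pow_mul_mem_finset` on `s ×ˢ range e`): `p^t (a i - g.coeff i) / p^k ∈ A`.  Taking `k = k' + t`:
`g.coeff i ∈ K0` by `mem_K0_of_approx`, and `(x - g.eval ϖ) / p^k' ∈ A` for all `k'`, so
`x = g.eval ϖ = ∑_{i<e} g.coeff i * ϖ^i` (`eq_zero_of_forall_div_pow_mem`,
`Polynomial.eval_eq_sum_range'`). -/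
theorem exists_expansion_of_approx (hp : p.Prime) (hA : A.LiesOverPrime p) {ϖ x : Qb} {e : ℕ}
    (hϖA : ϖ ∈ A) (hcard : e ≤ (orb A ϖ).card)
    (h : ∀ k : ℕ, ∃ a : ℕ → Qb, (∀ i, a i ∈ K0 A) ∧
      (x - ∑ i ∈ Finset.range e, a i * ϖ ^ i) / (p : Qb) ^ k ∈ A) :
    ∃ a : ℕ → Qb, (∀ i, a i ∈ K0 A) ∧ x = ∑ i ∈ Finset.range e, a i * ϖ ^ i := by
  classical
  have hp0 : (p : Qb) ≠ 0 := by exact_mod_cast hp.ne_zero
  have hpA : (p : Qb) ∈ A := A.nonunits_subset hA
  obtain ⟨s, hs, hse⟩ := Finset.exists_subset_card_eq hcard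
  have hex : ∀ y : Qb, ∃ σ ∈ A.inertiaSubgroupIn ℚ, y ∈ s → σ ϖ = y := by
    intro y
    by_cases hy : y ∈ s
    · obtain ⟨σ, hσ, h1⟩ := mem_orb.1 (hs hy)
      exact ⟨σ, hσ, fun _ => h1⟩
    · exact ⟨1, one_mem _, fun h1 => absurd h1 hy⟩
  choose sig hsigI hsig using hex
  have hinj : Set.InjOn (id : Qb → Qb) s := Function.injective_id.injOn
  set g : Qb[X] := Lagrange.interpolate s id (fun y => sig y x) with hg
  have hgdeg : g.degree < e := by
    rw [← hse]
    exact Lagrange.degree_interpolate_lt _ hinj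
  obtain ⟨t, ht⟩ := exists_pow_mul_mem_finset hp hA (s ×ˢ Finset.range e)
    (fun yi => (Lagrange.basis s id yi.1).coeff yi.2)
  -- the key estimate
  have key : ∀ (k : ℕ) (a : ℕ → Qb), (∀ i, a i ∈ K0 A) →
      (x - ∑ i ∈ Finset.range e, a i * ϖ ^ i) / (p : Qb) ^ k ∈ A →
      ∀ i < e, (p : Qb) ^ t * (a i - g.coeff i) / (p : Qb) ^ k ∈ A := by
    intro k a ha hk i hi
    set f : Qb[X] := ∑ j ∈ Finset.range e, C (a j) * X ^ j with hf
    have hfcoeff : ∀ m, f.coeff m = if m < e then a m else 0 := by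
      intro m
      rw [hf, finsetSum_coeff]
      simp only [coeff_C_mul, coeff_X_pow, mul_ite, mul_one, mul_zero]
      rw [Finset.sum_ite_eq]
      simp only [Finset.mem_range]
    have hfdeg : f.degree < (s.card : ℕ) := by
      rw [hse, degree_lt_iff_coeff_zero]
      intro m hm
      rw [hfcoeff, if_neg (not_lt.2 hm)]
    have hfi := Lagrange.eq_interpolate (v := id) hinj hfdeg
    have hfeval : ∀ y, f.eval y = ∑ j ∈ Finset.range e, a j * y ^ j := by
      intro y
      rw [hf, eval_finsetSum]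
      simp only [eval_mul, eval_C, eval_pow, eval_X]
    have hterm : ∀ y ∈ s, (f.eval y - sig y x) / (p : Qb) ^ k ∈ A := by
      intro y hy
      have h1 : sig y ((x - ∑ j ∈ Finset.range e, a j * ϖ ^ j) / (p : Qb) ^ k) ∈ A :=
        apply_mem_of_mem_decomposition A (inertia_le_decomposition A (hsigI y)) hk
      have h2 : (f.eval y - sig y x) / (p : Qb) ^ k =
          - sig y ((x - ∑ j ∈ Finset.range e, a j * ϖ ^ j) / (p : Qb) ^ k) := by
        rw [map_div₀, map_sub, map_pow, map_natCast, map_sum, hfeval]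
        have h3 : ∀ j ∈ Finset.range e, sig y (a j * ϖ ^ j) = a j * y ^ j := by
          intro j _
          rw [map_mul, map_pow, hsig y hy, (mem_K0_iff A (a j)).1 (ha j) _ (hsigI y)]
        rw [Finset.sum_congr rfl h3]
        ring
      rw [h2]
      exact A.neg_mem _ h1
    have hdiff : a i - g.coeff i =
        ∑ y ∈ s, (f.eval y - sig y x) * (Lagrange.basis s id y).coeff i := by
      have h1 : a i = f.coeff i := by rw [hfcoeff, if_pos hi]
      rw [h1]
      conv_lhs => rw [hfi]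
      rw [hg, Lagrange.interpolate_apply, Lagrange.interpolate_apply, finsetSum_coeff,
        finsetSum_coeff, ← Finset.sum_sub_distrib]
      refine Finset.sum_congr rfl fun y _ => ?_
      rw [coeff_C_mul, coeff_C_mul, id, sub_mul]
    rw [hdiff, Finset.mul_sum, Finset.sum_div]
    refine A.sum_mem fun y hy => ?_
    have h4 : (p : Qb) ^ t * ((f.eval y - sig y x) * (Lagrange.basis s id y).coeff i) /
        (p : Qb) ^ k = (f.eval y - sig y x) / (p : Qb) ^ k *
          ((p : Qb) ^ t * (Lagrange.basis s id y).coeff i) := by ring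
    rw [h4]
    exact A.mul_mem _ _ (hterm y hy)
      (ht (y, i) (Finset.mem_product.2 ⟨hy, Finset.mem_range.2 hi⟩))
  refine ⟨fun i => g.coeff i, fun i => ?_, ?_⟩
  · show g.coeff i ∈ K0 A
    rcases lt_or_ge i e with hi | hi
    · apply mem_K0_of_approx hp hA
      intro k
      obtain ⟨a, ha, hk⟩ := h (k + t)
      refine ⟨a i, ha i, ?_⟩
      have h1 := key (k + t) a ha hk i hi
      have h2 : (g.coeff i - a i) / (p : Qb) ^ k =
          - ((p : Qb) ^ t * (a i - g.coeff i) / (p : Qb) ^ (k + t)) := by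
        rw [pow_add]
        field_simp
        ring
      rw [h2]
      exact A.neg_mem _ h1
    · rw [(degree_lt_iff_coeff_zero _ _).1 hgdeg i hi]
      exact zero_mem _
  · rw [← sub_eq_zero]
    apply eq_zero_of_forall_div_pow_mem hp hA
    intro k
    obtain ⟨a, ha, hk⟩ := h (k + t)
    have h1 := key (k + t) a ha hk
    have h2 : (x - ∑ i ∈ Finset.range e, g.coeff i * ϖ ^ i) / (p : Qb) ^ k =
        (x - ∑ i ∈ Finset.range e, a i * ϖ ^ i) / (p : Qb) ^ (k + t) * (p : Qb) ^ t +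
          ∑ i ∈ Finset.range e,
            (p : Qb) ^ t * (a i - g.coeff i) / (p : Qb) ^ (k + t) * ϖ ^ i := by
      have h3 : ∀ i ∈ Finset.range e,
          (p : Qb) ^ t * (a i - g.coeff i) / (p : Qb) ^ (k + t) * ϖ ^ i =
            (a i * ϖ ^ i - g.coeff i * ϖ ^ i) / (p : Qb) ^ k := by
        intro i _
        rw [pow_add]
        field_simp
      rw [Finset.sum_congr rfl h3, ← Finset.sum_div, Finset.sum_sub_distrib, pow_add]
      field_simp
      ring
    rw [h2]
    refine A.add_mem _ _ (A.mul_mem _ _ hk (A.pow_mem hpA t)) (A.sum_mem fun i hi => ?_)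
    exact A.mul_mem _ _ (h1 i (Finset.mem_range.1 hi)) (A.pow_mem hϖA i)

end Fermat.Agent.Lib.InertiaField
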