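import Mathlib
import Fermat.Agent.Lib.InertiaField.TotRam.Defs

/-!
# TotRam, node PRIM: primitive elements  (architect: helper71)
-/

set_option autoImplicit false

namespace Fermat.Agent.Lib.InertiaField

variable {A : ValuationSubring Qb}

/-- Elementary proof: `θ = a + c b` with `c : ℕ` avoiding the finitely many solutions of
`(y - a) + c (z - b) = 0`, `(y, z) ∈ orb A a ×ˢ orb A b`, `(y, z) ≠ (a, b)` (each pair excludes at most
one `c`; `Qb` has characteristic zero). -/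
theorem exists_prim_pair (A : ValuationSubring Qb) (a b : Qb) :
    ∃ θ : Qb, ∀ σ ∈ A.inertiaSubgroupIn ℚ, σ θ = θ ↔ (σ a = a ∧ σ b = b) := by
  classical
  set T : Finset Qb := (orb A a ×ˢ orb A b).image fun yz => (a - yz.1) / (yz.2 - b) with hT
  obtain ⟨_, ⟨c, rfl⟩, hc⟩ :=
    (Set.infinite_range_of_injective (Nat.cast_injective (R := Qb))).exists_notMem_finset T
  refine ⟨a + (c : Qb) * b, fun σ hσ => ⟨fun h => ?_, fun h => ?_⟩⟩
  · rw [map_add, map_mul, map_natCast] at h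
    have hb : σ b = b := by
      by_contra hb
      apply hc
      rw [hT, Finset.mem_image]
      refine ⟨(σ a, σ b), Finset.mem_product.2 ⟨mem_orb.2 ⟨σ, hσ, rfl⟩, mem_orb.2 ⟨σ, hσ, rfl⟩⟩, ?_⟩
      have h0 : σ b - b ≠ 0 := sub_ne_zero.2 hb
      rw [div_eq_iff h0]
      linear_combination -h
    refine ⟨?_, hb⟩
    rw [hb] at h
    exact add_right_cancel h
  · rw [map_add, map_mul, map_natCast, h.1, h.2]

/-- induction on the finite set (`Set.Finite.induction_on`); for `S = ∅` take `θ = 0`. -/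
theorem exists_prim (A : ValuationSubring Qb) {S : Set Qb} (hS : S.Finite) :
    ∃ θ : Qb, ∀ σ ∈ A.inertiaSubgroupIn ℚ, σ θ = θ ↔ ∀ s ∈ S, σ s = s := by
  induction S, hS using Set.Finite.induction_on with
  | empty => exact ⟨0, fun σ _ => ⟨fun _ s hs => absurd hs (Set.notMem_empty s), fun _ => map_zero σ⟩⟩
  | @insert s S _ _ ih =>
    obtain ⟨θ', hθ'⟩ := ih
    obtain ⟨θ, hθ⟩ := exists_prim_pair A s θ'
    refine ⟨θ, fun σ hσ => ?_⟩
    rw [hθ σ hσ, hθ' σ hσ, Set.forall_mem_insert]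

theorem adj_eq_of_stab {S T : Set Qb}
    (h : ∀ σ ∈ A.inertiaSubgroupIn ℚ, (∀ s ∈ S, σ s = s) ↔ ∀ t ∈ T, σ t = t) :
    adj A S = adj A T := by
  ext x
  rw [mem_adj, mem_adj]
  exact ⟨fun hx σ hσ ht => hx σ hσ ((h σ hσ).2 ht), fun hx σ hσ hs => hx σ hσ ((h σ hσ).1 hs)⟩

end Fermat.Agent.Lib.InertiaField
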