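import Mathlib
import Fermat.Agent.Lib.InertiaField.TotRam.Defs

/-!
# TotRam, node VALUE: existence of a uniformiser (pure ordered group argument)
(architect: helper71)   STUB FILE: the statement is frozen; the task owner replaces the `sorry`.
-/

set_option autoImplicit false

namespace Fermat.Agent.Lib.InertiaField

variable {A : ValuationSubring Qb} {p : ℕ}

/-- **Existence of a uniformiser.**  Write `v = A.valuation`, `0 < v p < 1`.
For `x ∈ L` with `v x < 1`, `x ≠ 0`, let `j x ≥ 1` be the integer with `v x ^ D = v p ^ j x`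
(unique: `zpow` of `v p` is strictly antitone).  Let `ϖ` minimise `j` (`p` itself is a candidate,
`j p = D`), `j₀ := j ϖ`.  For `x ∈ L`, `x ≠ 0`, `v x ^ D = v p ^ j`; write `j = k j₀ + r`, `0 ≤ r < j₀`;
`y := x / ϖ ^ k ∈ L` has `v y ^ D = v p ^ r`; if `r > 0` then `v y < 1` contradicts minimality; so
`r = 0`, `v y ^ D = 1`, `v y = 1` (`pow_eq_one_iff_of_nonneg` / `pow_left_injective` in a linearly
ordered group with zero).  Finally `v p = v ϖ ^ k` with `k > 0` because both are `< 1`. -/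
theorem exists_unif_of_pow (hp : p.Prime) (hA : A.LiesOverPrime p) (L : Subfield Qb) {D : ℕ}
    (hD : 0 < D)
    (h : ∀ x ∈ L, x ≠ 0 → ∃ j : ℤ, A.valuation x ^ D = A.valuation (p : Qb) ^ j) :
    ∃ ϖ ∈ L, ∃ e : ℕ, 0 < e ∧ A.valuation ϖ ^ e = A.valuation (p : Qb) ∧
      ∀ x ∈ L, x ≠ 0 → ∃ k : ℤ, A.valuation x = A.valuation ϖ ^ k := by
  classical
  have hp0 : (p : Qb) ≠ 0 := by exact_mod_cast hp.ne_zero
  have hπ1 : A.valuation (p : Qb) < 1 := (A.mem_nonunits_iff).mp hA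
  have hπne : A.valuation (p : Qb) ≠ 0 := (map_ne_zero _).2 hp0
  have hπ0 : 0 < A.valuation (p : Qb) := zero_lt_iff.mpr hπne
  have hanti : StrictAnti (fun n : ℤ => A.valuation (p : Qb) ^ n) :=
    zpow_right_strictAnti₀ hπ0 hπ1
  -- the minimal positive exponent
  let P : ℕ → Prop := fun j => 0 < j ∧ ∃ x ∈ L, x ≠ 0 ∧
    A.valuation x ^ D = A.valuation (p : Qb) ^ (j : ℤ)
  have hP : ∃ j, P j := ⟨D, hD, p, natCast_mem L p, hp0, by rw [zpow_natCast]⟩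
  obtain ⟨hj₀, ϖ, hϖL, hϖ0, hϖ⟩ := Nat.find_spec hP
  set j₀ := Nat.find hP with hj₀def
  have hvϖne : A.valuation ϖ ≠ 0 := (map_ne_zero _).2 hϖ0
  have hvϖ0 : 0 < A.valuation ϖ := zero_lt_iff.mpr hvϖne
  have hvϖ1 : A.valuation ϖ < 1 := by
    by_contra hcon
    have h1 : 1 ≤ A.valuation ϖ ^ D := one_le_pow₀ (not_lt.mp hcon)
    have h2 : A.valuation (p : Qb) ^ (j₀ : ℤ) < A.valuation (p : Qb) ^ (0 : ℤ) :=
      hanti (by exact_mod_cast hj₀)
    rw [zpow_zero, ← hϖ] at h2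
    exact absurd h1 (not_le.mpr h2)
  have hantiϖ : StrictAnti (fun n : ℤ => A.valuation ϖ ^ n) := zpow_right_strictAnti₀ hvϖ0 hvϖ1
  have key : ∀ x ∈ L, x ≠ 0 → ∃ k : ℤ, A.valuation x = A.valuation ϖ ^ k := by
    intro x hx hx0
    obtain ⟨j, hj⟩ := h x hx hx0
    have hj₀' : (0 : ℤ) < (j₀ : ℤ) := by exact_mod_cast hj₀
    have hr0 : 0 ≤ j % (j₀ : ℤ) := Int.emod_nonneg _ hj₀'.ne'
    have hr1 : j % (j₀ : ℤ) < (j₀ : ℤ) := Int.emod_lt_of_pos _ hj₀'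
    have hjk : (j₀ : ℤ) * (j / (j₀ : ℤ)) + j % (j₀ : ℤ) = j := Int.mul_ediv_add_emod j j₀
    set k := j / (j₀ : ℤ) with hk
    set r := j % (j₀ : ℤ) with hr
    have hyL : x * (ϖ ^ k)⁻¹ ∈ L := L.mul_mem hx (L.inv_mem (zpow_mem hϖL k))
    have hy0 : x * (ϖ ^ k)⁻¹ ≠ 0 := mul_ne_zero hx0 (inv_ne_zero (zpow_ne_zero _ hϖ0))
    have hvy : A.valuation (x * (ϖ ^ k)⁻¹) = A.valuation x * (A.valuation ϖ ^ k)⁻¹ := by
      rw [map_mul, map_inv₀, map_zpow₀]
    have hyD : A.valuation (x * (ϖ ^ k)⁻¹) ^ D = A.valuation (p : Qb) ^ r := by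
      have h1 : (A.valuation ϖ ^ k) ^ D = A.valuation (p : Qb) ^ ((j₀ : ℤ) * k) := by
        rw [zpow_mul, ← hϖ, ← zpow_natCast, ← zpow_natCast, ← zpow_mul, ← zpow_mul, mul_comm]
      rw [hvy, mul_pow, inv_pow, h1, hj, ← zpow_neg, ← zpow_add₀ hπne]
      congr 1
      omega
    by_cases hr' : r = 0
    · refine ⟨k, ?_⟩
      rw [hr', zpow_zero] at hyD
      have h1 : A.valuation (x * (ϖ ^ k)⁻¹) = 1 :=
        (pow_eq_one_iff_of_nonneg zero_le hD.ne').mp hyD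
      rw [hvy] at h1
      exact (mul_inv_eq_one₀ (zpow_ne_zero _ hvϖne)).mp h1
    · exfalso
      have hrpos : 0 < r := lt_of_le_of_ne hr0 (Ne.symm hr')
      have hlt : r.toNat < j₀ := by omega
      refine Nat.find_min hP hlt ⟨by omega, _, hyL, hy0, ?_⟩
      rw [hyD, Int.toNat_of_nonneg hr0]
  obtain ⟨k, hk⟩ := key p (natCast_mem L p) hp0
  have hkpos : 0 < k := by
    by_contra hcon
    have h1 : A.valuation ϖ ^ (0 : ℤ) ≤ A.valuation ϖ ^ k := hantiϖ.antitone (not_lt.mp hcon)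
    rw [zpow_zero, ← hk] at h1
    exact absurd hπ1 (not_lt.mpr h1)
  refine ⟨ϖ, hϖL, k.toNat, by omega, ?_, key⟩
  rw [hk, ← zpow_natCast, Int.toNat_of_nonneg hkpos.le]

end Fermat.Agent.Lib.InertiaField
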