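import Mathlib
import Fermat.Agent.Lib.InertiaField.TotRam.Prim
import Fermat.Agent.Lib.InertiaField.TotRam.Value
import Fermat.Agent.Lib.InertiaField.TotRam.Card
import Fermat.Agent.Lib.InertiaField.TotRam.Approx
import Fermat.Agent.Lib.InertiaField.TotRam.Defectless

/-!
# Finite extensions of the inertia field are totally ramified: the main theorem (LF1)
(owner: helper71)
-/

set_option autoImplicit false

namespace Fermat.Agent.Lib.InertiaField

open Polynomial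

variable {A : ValuationSubring Qb} {p : ℕ}

/-- **The criterion.**  An element `ϖ` of `K0(θ)` whose value generates the values of `K0(θ)`. -/
theorem isTotUnif_of_val (hp : p.Prime) (hA : A.LiesOverPrime p) {θ ϖ : Qb} {e : ℕ}
    (hϖL : ϖ ∈ adj A {θ}) (he : 0 < e) (hϖ : A.valuation ϖ ^ e = A.valuation (p : Qb))
    (hval : ∀ x ∈ adj A {θ}, x ≠ 0 → ∃ k : ℤ, A.valuation x = A.valuation ϖ ^ k) :
    IsTotUnif A p ϖ e ∧ ∀ σ ∈ A.inertiaSubgroupIn ℚ, σ ϖ = ϖ ↔ σ θ = θ := by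
  have hp0 : (p : Qb) ≠ 0 := by exact_mod_cast hp.ne_zero
  have hvp1 : A.valuation (p : Qb) < 1 := (A.mem_nonunits_iff).mp hA
  have hK : ∀ x ∈ K0 A, x ∈ adj A {θ} := fun x hx => mem_adj_of_mem_K0 _ hx
  have hϖ1 : A.valuation ϖ < 1 := by
    by_contra hcon
    rw [not_lt] at hcon
    have : 1 ≤ A.valuation ϖ ^ e := one_le_pow₀ hcon
    rw [hϖ] at this
    exact absurd hvp1 (not_lt.2 this)
  have hϖA : ϖ ∈ A := (A.valuation_le_one_iff _).1 hϖ1.le
  have hcard : e ≤ (orb A ϖ).card := le_card_orb hp hA he hϖ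
  -- expansions
  have hexp : ∀ x ∈ A, x ∈ adj A {θ} → ∃ a : ℕ → Qb, (∀ i, a i ∈ K0 A ∧ a i ∈ A) ∧
      x = ∑ i ∈ Finset.range e, a i * ϖ ^ i := by
    intro x hxA hxL
    obtain ⟨a, ha, hx⟩ := exists_expansion_of_approx hp hA hϖA hcard (x := x) (fun k => by
      obtain ⟨a, ha, h⟩ := exists_approx hp hA (adj A {θ}) hK hϖL he hϖ hval hxL hxA k
      exact ⟨a, fun i => (ha i).1, h⟩)
    refine ⟨fun i => if i < e then a i else 0, fun i => ?_, ?_⟩
    · by_cases hi : i < e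
      · simp only [hi, if_true]
        exact ⟨ha i, coeff_mem_of_sum_mem hp hA he hϖ ha (hx ▸ hxA) hi⟩
      · simp only [hi, if_false]
        exact ⟨zero_mem _, zero_mem _⟩
    · rw [hx]
      refine Finset.sum_congr rfl fun i hi => ?_
      simp only [Finset.mem_range.1 hi, if_true]
  -- stabilisers
  have hstab : ∀ σ ∈ A.inertiaSubgroupIn ℚ, σ ϖ = ϖ ↔ σ θ = θ := by
    intro σ hσ
    constructor
    · intro h
      obtain ⟨t, ht⟩ := exists_pow_mul_mem hp hA θ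
      have htL : (p : Qb) ^ t * θ ∈ adj A {θ} :=
        mul_mem (pow_mem (natCast_mem _ p) t) (self_mem_adj A θ)
      obtain ⟨a, ha, hx⟩ := hexp _ ht htL
      have h1 : σ ((p : Qb) ^ t * θ) = (p : Qb) ^ t * θ := by
        rw [hx, map_sum]
        refine Finset.sum_congr rfl fun i _ => ?_
        rw [map_mul, map_pow, h, (mem_K0_iff A _).1 (ha i).1 σ hσ]
      rw [map_mul, map_pow, map_natCast] at h1
      exact mul_left_cancel₀ (pow_ne_zero t hp0) h1
    · intro h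
      exact mem_adj_singleton.1 hϖL σ hσ h
  have hadj : adj A {ϖ} = adj A {θ} := adj_eq_of_stab fun σ hσ => by
    simpa using hstab σ hσ
  have hcard' : (orb A ϖ).card ≤ e := by
    obtain ⟨a, ha, hx⟩ := hexp (ϖ ^ e) (pow_mem hϖA e) (pow_mem hϖL e)
    exact card_orb_le_of_pow_eq (fun i => (ha i).1) hx
  exact ⟨⟨le_antisymm hcard' hcard, hϖ, fun x hxA hxL => hexp x hxA (hadj ▸ hxL)⟩, hstab⟩

/-- **LF1, one generator.** -/
theorem exists_isTotUnif_simple (hp : p.Prime) (hA : A.LiesOverPrime p) (θ : Qb) :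
    ∃ (ϖ : Qb) (n : ℕ), IsTotUnif A p ϖ n ∧
      ∀ σ ∈ A.inertiaSubgroupIn ℚ, σ ϖ = ϖ ↔ σ θ = θ := by
  obtain ⟨ϖ, hϖL, e, he, hϖ, hval⟩ := exists_unif_of_pow hp hA (adj A {θ})
    (Nat.factorial_pos (orb A θ).card) (fun x hx hx0 => exists_zpow_of_mem_adj hp hA hx hx0)
  exact ⟨ϖ, e, isTotUnif_of_val hp hA hϖL he hϖ hval⟩

/-- **LF1.**  `K0(S)`, `S` finite, is totally ramified over `K0`. -/
theorem exists_isTotUnif (hp : p.Prime) (hA : A.LiesOverPrime p) {S : Set Qb} (hS : S.Finite) :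
    ∃ (ϖ : Qb) (n : ℕ), IsTotUnif A p ϖ n ∧
      ∀ σ ∈ A.inertiaSubgroupIn ℚ, σ ϖ = ϖ ↔ ∀ s ∈ S, σ s = s := by
  obtain ⟨θ, hθ⟩ := exists_prim A hS
  obtain ⟨ϖ, n, h, hst⟩ := exists_isTotUnif_simple hp hA θ
  exact ⟨ϖ, n, h, fun σ hσ => (hst σ hσ).trans (hθ σ hσ)⟩

end Fermat.Agent.Lib.InertiaField
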