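import Mathlib
import Fermat.Agent.Lib.InertiaField.TotRam.Main

/-!
# TotRam, node CONSEQ: the API of `IsTotUnif`  (architect: helper71; proofs: helper196, task 2908)
Tools: `TotRam/{Orbit,MinP,Indep,Card,Defectless,Main}.lean`.
-/

set_option autoImplicit false

namespace Fermat.Agent.Lib.InertiaField

open Polynomial

variable {A : ValuationSubring Qb} {p : ℕ} {ϖ : Qb} {n : ℕ}

namespace IsTotUnif

theorem pos (h : IsTotUnif A p ϖ n) : 0 < n := h.card ▸ card_orb_pos A ϖ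

theorem val_lt_one (h : IsTotUnif A p ϖ n) (hA : A.LiesOverPrime p) : A.valuation ϖ < 1 := by
  by_contra hcon
  have h1 : 1 ≤ A.valuation ϖ := not_lt.1 hcon
  have h2 : A.valuation (p : Qb) < 1 := (A.mem_nonunits_iff).mp hA
  rw [← h.val_pow] at h2
  exact absurd (one_le_pow₀ h1) (not_le.2 h2)

theorem mem_nonunits (h : IsTotUnif A p ϖ n) (hA : A.LiesOverPrime p) : ϖ ∈ A.nonunits :=
  (A.mem_nonunits_iff).2 (h.val_lt_one hA)

theorem mem (h : IsTotUnif A p ϖ n) (hA : A.LiesOverPrime p) : ϖ ∈ A :=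
  A.nonunits_subset (h.mem_nonunits hA)

theorem ne_zero (h : IsTotUnif A p ϖ n) (hp : p.Prime) : ϖ ≠ 0 := by
  rintro rfl
  have h1 := h.val_pow
  rw [map_zero, zero_pow h.pos.ne'] at h1
  exact (_root_.map_ne_zero A.valuation).2 (Nat.cast_ne_zero.2 hp.ne_zero) h1.symm

/-- scale by `p ^ t` (`exists_pow_mul_mem`) -/
theorem expand_K0 (h : IsTotUnif A p ϖ n) (hp : p.Prime) (hA : A.LiesOverPrime p) {x : Qb}
    (hx : x ∈ adj A {ϖ}) :
    ∃ a : ℕ → Qb, (∀ i, a i ∈ K0 A) ∧ x = ∑ i ∈ Finset.range n, a i * ϖ ^ i := by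
  have hp0 : (p : Qb) ≠ 0 := by exact_mod_cast hp.ne_zero
  obtain ⟨t, ht⟩ := exists_pow_mul_mem hp hA x
  have hpK : (p : Qb) ^ t ∈ K0 A := pow_mem (natCast_mem _ p) t
  obtain ⟨a, ha, hsum⟩ := h.expand _ ht (mul_mem (mem_adj_of_mem_K0 _ hpK) hx)
  refine ⟨fun i => ((p : Qb) ^ t)⁻¹ * a i, fun i => mul_mem (inv_mem hpK) (ha i).1, ?_⟩
  simp only [mul_assoc]
  rw [← Finset.mul_sum, ← hsum, ← mul_assoc, inv_mul_cancel₀ (pow_ne_zero t hp0), one_mul]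

/-- (`eq_zero_of_sum_eq_zero` for `a - b`) -/
theorem unique (h : IsTotUnif A p ϖ n) (hp : p.Prime) (hA : A.LiesOverPrime p) {a b : ℕ → Qb}
    (ha : ∀ i, a i ∈ K0 A) (hb : ∀ i, b i ∈ K0 A)
    (hab : ∑ i ∈ Finset.range n, a i * ϖ ^ i = ∑ i ∈ Finset.range n, b i * ϖ ^ i) {i : ℕ}
    (hi : i < n) : a i = b i := by
  have h0 := eq_zero_of_sum_eq_zero hp hA h.pos h.val_pow (a := fun i => a i - b i)
    (fun i => sub_mem (ha i) (hb i))
    (by simp only [sub_mul]; rw [Finset.sum_sub_distrib, hab, sub_self]) hi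
  exact sub_eq_zero.1 h0

/-- **ord**: (`expand_K0`, `exists_val_sum_eq_zpow`) -/
theorem val_eq_zpow (h : IsTotUnif A p ϖ n) (hp : p.Prime) (hA : A.LiesOverPrime p) {x : Qb}
    (hx : x ∈ adj A {ϖ}) (hx0 : x ≠ 0) : ∃ k : ℤ, A.valuation x = A.valuation ϖ ^ k := by
  obtain ⟨a, ha, rfl⟩ := h.expand_K0 hp hA hx
  exact exists_val_sum_eq_zpow hp hA h.pos h.val_pow ha hx0

theorem val_pos (h : IsTotUnif A p ϖ n) (hp : p.Prime) : 0 < A.valuation ϖ :=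
  zero_lt_iff.2 ((_root_.map_ne_zero A.valuation).2 (h.ne_zero hp))

theorem zpow_le_zpow_iff (h : IsTotUnif A p ϖ n) (hp : p.Prime) (hA : A.LiesOverPrime p)
    {k l : ℤ} : A.valuation ϖ ^ k ≤ A.valuation ϖ ^ l ↔ l ≤ k :=
  zpow_le_zpow_iff_right_of_lt_one₀ (h.val_pos hp) (h.val_lt_one hA)

/-- the exponent is unique -/
theorem zpow_injective (h : IsTotUnif A p ϖ n) (hp : p.Prime) (hA : A.LiesOverPrime p) {k l : ℤ}
    (hkl : A.valuation ϖ ^ k = A.valuation ϖ ^ l) : k = l :=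
  le_antisymm ((h.zpow_le_zpow_iff hp hA).1 hkl.ge) ((h.zpow_le_zpow_iff hp hA).1 hkl.le)

/-- `ϖ` generates the maximal ideal of `A ∩ K0(ϖ)` -/
theorem div_mem (h : IsTotUnif A p ϖ n) (hp : p.Prime) (hA : A.LiesOverPrime p) {x : Qb}
    (hx : x ∈ adj A {ϖ}) (hx1 : x ∈ A.nonunits) : x / ϖ ∈ A := by
  rcases eq_or_ne x 0 with rfl | hx0
  · rw [zero_div]
    exact A.zero_mem
  obtain ⟨k, hk⟩ := h.val_eq_zpow hp hA hx hx0
  have h1 : A.valuation x < 1 := (A.mem_nonunits_iff).1 hx1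
  have hk1 : 1 ≤ k := by
    by_contra hcon
    have h2 : A.valuation ϖ ^ (0 : ℤ) ≤ A.valuation ϖ ^ k :=
      (h.zpow_le_zpow_iff hp hA).2 (by omega)
    rw [zpow_zero, ← hk] at h2
    exact absurd h2 (not_le.2 h1)
  rw [← A.valuation_le_one_iff, map_div₀, hk, div_eq_mul_inv, ← zpow_sub_one₀ (h.val_pos hp).ne',
    ← zpow_zero (A.valuation ϖ), h.zpow_le_zpow_iff hp hA]
  omega

end IsTotUnif

end Fermat.Agent.Lib.InertiaField
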