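import Mathlib
import Fermat.Agent.Lib.InertiaField.TotRam.Conseq

/-!
# TotRam, node CONSEQ2: Eisenstein polynomial, change of uniformiser, counting criteria
(architect: helper71; proofs: helper80, task 2909)
-/

set_option autoImplicit false
set_option linter.unusedVariables false

namespace Fermat.Agent.Lib.InertiaField

open Polynomial

variable {A : ValuationSubring Qb} {p : ℕ} {ϖ : Qb} {n : ℕ}

namespace IsTotUnif

/-- **Eisenstein**: (`coeff_minP_mem_K0`, `coeff_minP_mem_nonunits`, `Unram.div_mem`) -/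
theorem coeff_minP_div_mem (h : IsTotUnif A p ϖ n) (hp : p.Prime) (hA : A.LiesOverPrime p) {i : ℕ}
    (hi : i < n) : (minP A ϖ).coeff i / (p : Qb) ∈ A :=
  Fermat.Agent.Lib.InertiaField.div_mem A p hp hA (coeff_minP_mem_K0 A ϖ i)
    (coeff_minP_mem_nonunits (h.mem_nonunits hA) (h.card.symm ▸ hi))

/-- (`coeff_zero_minP`, `val_prod_orb`) -/
theorem val_coeff_zero_minP (h : IsTotUnif A p ϖ n) :
    A.valuation ((minP A ϖ).coeff 0) = A.valuation (p : Qb) := by
  rw [coeff_zero_minP, map_mul, map_pow, Valuation.map_neg, map_one, one_pow, one_mul,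
    val_prod_orb, h.card, h.val_pow]

/-- **Every element of `K0(ϖ)` of the same value is again a generator.**
(`isTotUnif_of_val` with `θ := ϖ`, `val_eq_zpow`.) -/
theorem of_val_eq (h : IsTotUnif A p ϖ n) (hp : p.Prime) (hA : A.LiesOverPrime p) {ϖ' : Qb}
    (h' : ϖ' ∈ adj A {ϖ}) (hv : A.valuation ϖ' = A.valuation ϖ) :
    IsTotUnif A p ϖ' n ∧ ∀ σ ∈ A.inertiaSubgroupIn ℚ, σ ϖ' = ϖ' ↔ σ ϖ = ϖ :=
  isTotUnif_of_val hp hA h' h.pos (by rw [hv, h.val_pow]) fun x hx hx0 => by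
    obtain ⟨k, hk⟩ := h.val_eq_zpow hp hA hx hx0
    exact ⟨k, by rw [hk, hv]⟩

/-- (`val_apply`, ultrametric inequality) -/
theorem val_apply_sub_le (h : IsTotUnif A p ϖ n) {σ : GQ} (hσ : σ ∈ A.inertiaSubgroupIn ℚ) :
    A.valuation (σ ϖ - ϖ) ≤ A.valuation ϖ := by
  refine (Valuation.map_sub _ _ _).trans ?_
  rw [val_apply hσ, max_self]

end IsTotUnif

/-- **Counting criterion**: if `K0(θ) ⊆ K0(x)` and `x` has at most as many conjugates as `θ` then
`K0(x) = K0(θ)`.  (The map `σ x ↦ σ θ`, `orb A x → orb A θ`, is well defined and surjective, hence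
injective.) -/
theorem mem_adj_of_card_le {x θ : Qb} (h : θ ∈ adj A {x})
    (hc : (orb A x).card ≤ (orb A θ).card) : x ∈ adj A {θ} := by
  classical
  let g : Qb → Qb := fun y =>
    if h : ∃ σ ∈ A.inertiaSubgroupIn ℚ, σ x = y then h.choose θ else 0
  have hg : ∀ τ ∈ A.inertiaSubgroupIn ℚ, g (τ x) = τ θ := by
    intro τ hτ
    have hex : ∃ σ ∈ A.inertiaSubgroupIn ℚ, σ x = τ x := ⟨τ, hτ, rfl⟩
    have hg' : g (τ x) = hex.choose θ := dif_pos hex
    rw [hg']
    obtain ⟨h1, h2⟩ := hex.choose_spec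
    have h3 : (τ⁻¹ * hex.choose) x = x := by
      show τ⁻¹ (hex.choose x) = x
      rw [h2]
      exact τ.symm_apply_apply x
    have h4 := mem_adj_singleton.1 h _ (mul_mem (inv_mem hτ) h1) h3
    have h5 : τ ((τ⁻¹ * hex.choose) θ) = hex.choose θ := τ.apply_symm_apply _
    rw [← h5, h4]
  have hmaps : Set.MapsTo g (orb A x) (orb A θ) := by
    intro y hy
    obtain ⟨τ, hτ, rfl⟩ := mem_orb.1 (Finset.mem_coe.1 hy)
    rw [hg τ hτ]
    exact Finset.mem_coe.2 (mem_orb.2 ⟨τ, hτ, rfl⟩)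
  have hsurj : Set.SurjOn g (orb A x) (orb A θ) := by
    intro z hz
    obtain ⟨τ, hτ, rfl⟩ := mem_orb.1 (Finset.mem_coe.1 hz)
    exact ⟨τ x, Finset.mem_coe.2 (mem_orb.2 ⟨τ, hτ, rfl⟩), hg τ hτ⟩
  have hinj := Finset.injOn_of_surjOn_of_card_le g hmaps hsurj hc
  rw [mem_adj_singleton]
  intro σ hσ hσθ
  apply hinj (Finset.mem_coe.2 (mem_orb.2 ⟨σ, hσ, rfl⟩)) (Finset.mem_coe.2 (self_mem_orb A x))
  have h1 : g x = θ := hg 1 (one_mem _)
  rw [hg σ hσ, hσθ, h1]

/-- roots of a polynomial with coefficients in `K0`: the orbit consists of roots -/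
theorem card_orb_le_natDegree {x : Qb} {Q : Qb[X]} (hQ0 : Q ≠ 0) (hQ : ∀ i, Q.coeff i ∈ K0 A)
    (hx : Q.eval x = 0) : (orb A x).card ≤ Q.natDegree := by
  classical
  have hsub : orb A x ⊆ Q.roots.toFinset := by
    intro y hy
    obtain ⟨σ, hσ, rfl⟩ := mem_orb.1 hy
    rw [Multiset.mem_toFinset, mem_roots hQ0, IsRoot.def]
    have hmap : Q.map (σ : Qb →+* Qb) = Q := by
      ext i
      rw [coeff_map]
      exact (mem_K0_iff A _).1 (hQ i) σ hσ
    have h1 := eval_map_apply (p := Q) (σ : Qb →+* Qb) x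
    rw [hmap, hx, map_zero] at h1
    exact h1
  calc (orb A x).card ≤ _ := Finset.card_le_card hsub
    _ ≤ _ := Multiset.toFinset_card_le _
    _ ≤ _ := card_roots' _

end Fermat.Agent.Lib.InertiaField
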