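import Mathlib
import Fermat.Agent.Lib.InertiaField.Closed
import Fermat.Agent.Lib.InertiaField.TotRam.Conseq

/-!
# LF1 in the language of intermediate fields of `Qb / K0 A`  (owner: helper71; for helper18)
-/

set_option autoImplicit false

namespace Fermat.Agent.Lib.InertiaField

open IntermediateField

variable (A : ValuationSubring Qb)

instance isGalois_K0 : IsGalois (K0 A) Qb :=
  haveI := Fermat.Agent.Lib.Frobenius.isGalois_rat
  IsGalois.tower_top_of_isGalois ℚ (K0 A) Qb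

/-- The inertia group is `Gal(Qb / K0 A)`. -/
noncomputable def inertiaEquiv : ↥(A.inertiaSubgroupIn ℚ) ≃* (Qb ≃ₐ[K0 A] Qb) :=
  (MulEquiv.subgroupCongr (fixingSubgroup_K0 A).symm).trans
    (IntermediateField.fixingSubgroupEquiv (K0 A))

@[simp] theorem inertiaEquiv_apply (σ : ↥(A.inertiaSubgroupIn ℚ)) (x : Qb) :
    inertiaEquiv A σ x = σ.1 x := rfl

theorem inertiaEquiv_symm_apply (τ : Qb ≃ₐ[K0 A] Qb) (x : Qb) :
    ((inertiaEquiv A).symm τ).1 x = τ x := by
  rw [← inertiaEquiv_apply, MulEquiv.apply_symm_apply]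

variable {A}

/-- `adj A S` as an intermediate field of `Qb / K0 A`. -/
def adjI (A : ValuationSubring Qb) (S : Set Qb) : IntermediateField (K0 A) Qb where
  toSubalgebra :=
    { (adj A S).toSubring.toSubsemiring with
      algebraMap_mem' := fun x => mem_adj_of_mem_K0 S x.2 }
  inv_mem' := fun _ hx => (adj A S).inv_mem hx

theorem mem_adjI {S : Set Qb} {x : Qb} : x ∈ adjI A S ↔ x ∈ adj A S := Iff.rfl

/-- `K0(S)`, field theoretic form = Galois theoretic form. -/
theorem adjoin_eq_adjI (S : Set Qb) : IntermediateField.adjoin (K0 A) S = adjI A S := by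
  apply le_antisymm
  · rw [IntermediateField.adjoin_le_iff]
    intro s hs
    exact subset_adj hs
  · intro x hx
    rw [← InfiniteGalois.fixedField_fixingSubgroup (IntermediateField.adjoin (K0 A) S),
      IntermediateField.mem_fixedField_iff]
    intro τ hτ
    rw [← inertiaEquiv_symm_apply]
    refine hx _ ((inertiaEquiv A).symm τ).2 fun s hs => ?_
    rw [inertiaEquiv_symm_apply]
    exact (IntermediateField.mem_fixingSubgroup_iff _ _).1 hτ s
      (IntermediateField.subset_adjoin _ _ hs)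

theorem exists_mem_iff_mem_adj (E : IntermediateField (K0 A) Qb) [FiniteDimensional (K0 A) E] :
    ∃ θ : Qb, ∀ x, x ∈ E ↔ x ∈ adj A {θ} := by
  obtain ⟨α, hα⟩ := Field.exists_primitive_element (K0 A) E
  refine ⟨(α : Qb), fun x => ?_⟩
  have h1 : E = IntermediateField.adjoin (K0 A) {(α : Qb)} := by
    rw [← IntermediateField.lift_adjoin_simple, hα, IntermediateField.lift_top]
  have h2 : x ∈ E ↔ x ∈ IntermediateField.adjoin (K0 A) {(α : Qb)} := by
    constructor
    · intro hx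
      exact h1 ▸ hx
    · intro hx
      exact h1.symm ▸ hx
  rw [h2, adjoin_eq_adjI, mem_adjI]

theorem finrank_eq_card_orb (E : IntermediateField (K0 A) Qb) {ϖ : Qb}
    (h : ∀ x, x ∈ E ↔ x ∈ adj A {ϖ}) : Module.finrank (K0 A) E = (orb A ϖ).card := by
  rw [IntermediateField.finrank_eq_fixingSubgroup_index]
  have h1 : E.fixingSubgroup = MulAction.stabilizer (Qb ≃ₐ[K0 A] Qb) ϖ := by
    ext τ
    rw [IntermediateField.mem_fixingSubgroup_iff, MulAction.mem_stabilizer_iff]
    constructor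
    · intro hτ
      exact hτ ϖ ((h ϖ).2 (self_mem_adj A ϖ))
    · intro hτ x hx
      have h2 := mem_adj_singleton.1 ((h x).1 hx) _ ((inertiaEquiv A).symm τ).2
      rw [inertiaEquiv_symm_apply, inertiaEquiv_symm_apply] at h2
      exact h2 hτ
  rw [h1, MulAction.index_stabilizer, ← Set.ncard_coe_finset]
  congr 1
  ext y
  rw [Finset.mem_coe, mem_orb, MulAction.mem_orbit_iff]
  constructor
  · rintro ⟨τ, rfl⟩
    exact ⟨_, ((inertiaEquiv A).symm τ).2, inertiaEquiv_symm_apply A τ ϖ⟩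
  · rintro ⟨σ, hσ, rfl⟩
    exact ⟨inertiaEquiv A ⟨σ, hσ⟩, rfl⟩

/-- **LF1**, in the form asked for by helper18. -/
theorem exists_uniformizer {q : ℕ} (hq : q.Prime) (hA : A.LiesOverPrime q)
    (E : IntermediateField (K0 A) Qb) [FiniteDimensional (K0 A) E] :
    ∃ ϖ : Qb, ϖ ∈ E ∧ A.valuation ϖ ^ (Module.finrank (K0 A) E) = A.valuation (q : Qb) ∧
      (∀ x ∈ E, x ≠ 0 → ∃ k : ℤ, A.valuation x = A.valuation ϖ ^ k) ∧
      (∀ z ∈ E, z ∈ A → ∃ a : Fin (Module.finrank (K0 A) E) → Qb,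
        (∀ i, a i ∈ K0 A ∧ a i ∈ A) ∧ z = ∑ i, a i * ϖ ^ (i : ℕ)) := by
  obtain ⟨θ, hθ⟩ := exists_mem_iff_mem_adj E
  obtain ⟨ϖ, n, h, hst⟩ := exists_isTotUnif_simple hq hA θ
  have hadj : adj A {ϖ} = adj A {θ} := adj_eq_of_stab fun σ hσ => by simpa using hst σ hσ
  have hE : ∀ x, x ∈ E ↔ x ∈ adj A {ϖ} := fun x => by rw [hθ, hadj]
  have hn : Module.finrank (K0 A) E = n := by rw [finrank_eq_card_orb E hE, h.card]
  rw [hn]
  refine ⟨ϖ, (hE ϖ).2 (self_mem_adj A ϖ), h.val_pow,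
    fun x hx hx0 => h.val_eq_zpow hq hA ((hE x).1 hx) hx0, fun z hz hzA => ?_⟩
  obtain ⟨a, ha, hz'⟩ := h.expand z hzA ((hE z).1 hz)
  exact ⟨fun i => a i, fun i => ha i, by rw [hz', Finset.sum_range]⟩

end Fermat.Agent.Lib.InertiaField
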